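import Fermat.Agent.FlatLocal.Defs
import Mathlib.Algebra.CharP.Lemmas
import Mathlib.RingTheory.Polynomial.Cyclotomic.Basic
import Mathlib.RingTheory.LocalRing.ResidueField.Basic
import Mathlib.RingTheory.RootsOfUnity.AlgebraicallyClosed

/-!
# Norm estimates for `p`-th powers and the residue field of `C`
-/

set_option autoImplicit false

noncomputable section

namespace Fermat.Agent.FlatLocal.Engine

open Polynomial

variable {p : ℕ} [Fact p.Prime]

local notation "C" => PadicAlgCl p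

theorem norm_gal (σ : Gp p) (x : C) : ‖σ x‖ = ‖x‖ := by
  rw [← PadicAlgCl.spectralNorm_eq, ← PadicAlgCl.spectralNorm_eq]
  exact (spectralNorm_eq_of_equiv σ x).symm

theorem norm_p : ‖(p : C)‖ = (p : ℝ)⁻¹ := by
  rw [← map_natCast (algebraMap ℚ_[p] C), norm_algebraMap', Padic.norm_p]

theorem norm_p_pos : 0 < ‖(p : C)‖ := by
  rw [norm_p]
  exact inv_pos.2 (Nat.cast_pos.2 (Fact.out : p.Prime).pos)

theorem norm_p_lt_one : ‖(p : C)‖ < 1 := by
  rw [norm_p]
  exact inv_lt_one_of_one_lt₀ (Nat.one_lt_cast.2 (Fact.out : p.Prime).one_lt)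

theorem natCast_p_ne_zero : (p : C) ≠ 0 := Nat.cast_ne_zero.2 (Fact.out : p.Prime).ne_zero

theorem norm_natCast_eq_one {n : ℕ} (h : ¬ p ∣ n) : ‖(n : C)‖ = 1 := by
  rw [← map_natCast (algebraMap ℚ_[p] C), norm_algebraMap', Padic.norm_natCast_eq_one_iff]
  exact (Fact.out : p.Prime).coprime_iff_not_dvd.2 h

variable (p) in
/-- The integers of `C`. -/
abbrev ringO : ValuationSubring C := (NormedField.valuation (K := C)).valuationSubring

theorem mem_ringO {x : C} : x ∈ ringO p ↔ ‖x‖ ≤ 1 := Iff.rfl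

theorem norm_le_one_of_ringO (x : ringO p) : ‖(x : C)‖ ≤ 1 := x.2

theorem isUnit_ringO_iff (x : ringO p) : IsUnit x ↔ ‖(x : C)‖ = 1 := by
  constructor
  · rintro ⟨u, rfl⟩
    refine le_antisymm (norm_le_one_of_ringO _) ?_
    have h : ‖((u : ringO p) : C)‖ * ‖((↑u⁻¹ : ringO p) : C)‖ = 1 := by
      rw [← norm_mul, ← MulMemClass.coe_mul, Units.mul_inv]
      simp
    calc (1 : ℝ) = _ := h.symm
      _ ≤ ‖((u : ringO p) : C)‖ := mul_le_of_le_one_right (norm_nonneg _) (norm_le_one_of_ringO _)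
  · intro h
    have h0 : (x : C) ≠ 0 := norm_ne_zero_iff.1 (h.trans_ne one_ne_zero)
    exact IsUnit.of_mul_eq_one ⟨(x : C)⁻¹, by rw [mem_ringO, norm_inv, h, inv_one]⟩
      (Subtype.ext (mul_inv_cancel₀ h0))

variable (p) in
/-- The residue field of `C`. -/
abbrev Res : Type := IsLocalRing.ResidueField (ringO p)

/-- The residue of an element, zero off the integers. -/
def res (x : C) : Res p :=
  if h : ‖x‖ ≤ 1 then IsLocalRing.residue (ringO p) ⟨x, h⟩ else 0

theorem res_coe (x : ringO p) : res (x : C) = IsLocalRing.residue (ringO p) x :=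
  dif_pos (norm_le_one_of_ringO x)

theorem residue_eq_zero_iff (x : ringO p) :
    IsLocalRing.residue (ringO p) x = 0 ↔ ‖(x : C)‖ < 1 := by
  rw [IsLocalRing.residue_eq_zero_iff, IsLocalRing.mem_maximalIdeal, mem_nonunits_iff,
    isUnit_ringO_iff]
  exact ⟨fun h => lt_of_le_of_ne (norm_le_one_of_ringO x) h, fun h => h.ne⟩

theorem res_zero : res (0 : C) = 0 := by
  rw [← ZeroMemClass.coe_zero (ringO p), res_coe, map_zero]

theorem res_one : res (1 : C) = 1 := by
  rw [← OneMemClass.coe_one (ringO p), res_coe, map_one]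

theorem res_add {x y : C} (hx : ‖x‖ ≤ 1) (hy : ‖y‖ ≤ 1) : res (x + y) = res x + res y := by
  change res ((⟨x, hx⟩ + ⟨y, hy⟩ : ringO p) : C) = _
  rw [res_coe, map_add, ← res_coe, ← res_coe]

theorem res_sub {x y : C} (hx : ‖x‖ ≤ 1) (hy : ‖y‖ ≤ 1) : res (x - y) = res x - res y := by
  change res ((⟨x, hx⟩ - ⟨y, hy⟩ : ringO p) : C) = _
  rw [res_coe, map_sub, ← res_coe, ← res_coe]

theorem res_mul {x y : C} (hx : ‖x‖ ≤ 1) (hy : ‖y‖ ≤ 1) : res (x * y) = res x * res y := by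
  change res ((⟨x, hx⟩ * ⟨y, hy⟩ : ringO p) : C) = _
  rw [res_coe, map_mul, ← res_coe, ← res_coe]

theorem res_pow {x : C} (hx : ‖x‖ ≤ 1) (n : ℕ) : res (x ^ n) = res x ^ n := by
  change res ((⟨x, hx⟩ ^ n : ringO p) : C) = _
  rw [res_coe, map_pow, ← res_coe]

theorem res_natCast (n : ℕ) : res (n : C) = n := by
  rw [show ((n : C)) = ((n : ringO p) : C) from (map_natCast (ringO p).subtype n).symm, res_coe,
    map_natCast]

theorem res_intCast (n : ℤ) : res (n : C) = n := by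
  rw [show ((n : C)) = ((n : ringO p) : C) from (map_intCast (ringO p).subtype n).symm, res_coe,
    map_intCast]

theorem res_eq_zero_iff {x : C} (hx : ‖x‖ ≤ 1) : res x = 0 ↔ ‖x‖ < 1 := by
  change res ((⟨x, hx⟩ : ringO p) : C) = 0 ↔ _
  rw [res_coe, residue_eq_zero_iff]

theorem res_eq_iff {x y : C} (hx : ‖x‖ ≤ 1) (hy : ‖y‖ ≤ 1) :
    res x = res y ↔ ‖x - y‖ < 1 := by
  rw [← sub_eq_zero, ← res_sub hx hy, res_eq_zero_iff]
  rw [sub_eq_add_neg]
  exact (IsUltrametricDist.norm_add_le_max _ _).trans (max_le hx (by rwa [norm_neg]))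

theorem res_ne_zero {x : C} (hx : ‖x‖ = 1) : res x ≠ 0 := fun h =>
  ((res_eq_zero_iff hx.le).1 h).ne hx

theorem exists_eq_res (a : Res p) : ∃ x : C, ‖x‖ ≤ 1 ∧ res x = a := by
  obtain ⟨y, rfl⟩ := IsLocalRing.residue_surjective a
  exact ⟨y, norm_le_one_of_ringO y, res_coe y⟩

instance charP_res : CharP (Res p) p :=
  (CharP.charP_iff_prime_eq_zero (Fact.out : p.Prime)).2 <| by
    rw [← res_natCast, res_eq_zero_iff norm_p_lt_one.le]
    exact norm_p_lt_one

theorem aeval_mem (P : ℤ[X]) {x : C} (hx : ‖x‖ ≤ 1) : ‖aeval x P‖ ≤ 1 := by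
  have h : aeval x P = ((aeval (⟨x, hx⟩ : ringO p) P : ringO p) : C) := by
    rw [aeval_def, aeval_def, ← Subring.coe_subtype, hom_eval₂]
    rfl
  rw [h]
  exact norm_le_one_of_ringO _

theorem res_aeval (P : ℤ[X]) {x : C} (hx : ‖x‖ ≤ 1) : res (aeval x P) = aeval (res x) P := by
  have h : aeval x P = ((aeval (⟨x, hx⟩ : ringO p) P : ringO p) : C) := by
    rw [aeval_def, aeval_def, ← Subring.coe_subtype, hom_eval₂]
    rfl
  rw [h, res_coe, show res x = IsLocalRing.residue (ringO p) ⟨x, hx⟩ from res_coe ⟨x, hx⟩,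
    aeval_def, aeval_def, hom_eval₂]
  congr 1

/-- `(1 + y) ^ p = 1 + y ^ p + p y s` with `s` congruent to `1` modulo `y`. -/
theorem exists_pow_expand {y : C} (hy : ‖y‖ ≤ 1) :
    ∃ s : C, (1 + y) ^ p - 1 = y ^ p + (p : C) * y * s ∧ ‖s‖ ≤ 1 ∧ ‖s - 1‖ ≤ ‖y‖ := by
  obtain ⟨r, hr⟩ := exists_add_pow_prime_eq (R := ℤ[X]) (Fact.out : p.Prime) X 1
  have h1 : r.coeff 0 = 1 := by
    have h := congrArg (fun P : ℤ[X] => P.coeff 1) hr
    simp only [one_pow, mul_one, coeff_add, coeff_X_pow, coeff_one] at h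
    rw [coeff_X_add_one_pow, if_neg (Fact.out : p.Prime).one_lt.ne, if_neg one_ne_zero,
      mul_assoc, ← C_eq_natCast, coeff_C_mul, coeff_X_mul, Nat.choose_one_right] at h
    have hp0 : (p : ℤ) ≠ 0 := Int.natCast_ne_zero.2 (Fact.out : p.Prime).ne_zero
    exact mul_left_cancel₀ hp0 (by rw [mul_one]; linarith)
  refine ⟨aeval y r, ?_, aeval_mem r hy, ?_⟩
  · have h := congrArg (aeval y) hr
    simp only [map_pow, map_add, map_mul, aeval_X, map_one, map_natCast, mul_one, one_pow] at h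
    rw [add_comm (1 : C), h]
    ring
  · have h := congrArg (aeval y) (X_mul_divX_add r)
    simp only [map_add, map_mul, aeval_X, h1, map_one] at h
    rw [← h, add_sub_cancel_right, norm_mul]
    exact mul_le_of_le_one_right (norm_nonneg _) (aeval_mem _ hy)

theorem norm_eq_one_of_sub_one_lt {x : C} (h : ‖x - 1‖ < 1) : ‖x‖ = 1 := by
  have h' := IsUltrametricDist.norm_add_eq_max_of_norm_ne_norm (x := x - 1) (y := 1)
    (by rw [norm_one]; exact h.ne)
  rwa [sub_add_cancel, norm_one, max_eq_right h.le] at h'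

theorem norm_mul_sub_one_le {x y : C} {r : ℝ} (hx : ‖x - 1‖ ≤ r) (hy : ‖y - 1‖ ≤ r)
    (hy1 : ‖y‖ ≤ 1) : ‖x * y - 1‖ ≤ r := by
  rw [show x * y - 1 = (x - 1) * y + (y - 1) by ring]
  refine (IsUltrametricDist.norm_add_le_max _ _).trans (max_le ?_ hy)
  rw [norm_mul]
  exact (mul_le_of_le_one_right (norm_nonneg _) hy1).trans hx

/-- A root of unity of order prime to `p` close to another is equal to it. -/
theorem root_eq_of_sub_lt {N : ℕ} (hN : ¬ p ∣ N) {x y : C} (hx : x ^ N = 1) (hy : y ^ N = 1)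
    (h : ‖x - y‖ < 1) : x = y := by
  have hN0 : N ≠ 0 := fun h0 => hN (h0 ▸ dvd_zero p)
  have hy1 : ‖y‖ = 1 := by
    have h' := congrArg norm hy
    rw [norm_pow, norm_one] at h'
    exact (pow_eq_one_iff_of_nonneg (norm_nonneg _) hN0).1 h'
  have hy0 : y ≠ 0 := norm_ne_zero_iff.1 (hy1.trans_ne one_ne_zero)
  set z := x / y with hz
  have hzN : z ^ N = 1 := by rw [hz, div_pow, hx, hy, div_one]
  have hlt : ‖z - 1‖ < 1 := by rwa [hz, div_sub_one hy0, norm_div, hy1, div_one]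
  have hz1 : z = 1 := by
    have hz' : ‖z‖ = 1 := norm_eq_one_of_sub_one_lt hlt
    have hpow : ∀ i : ℕ, ‖z ^ i - 1‖ ≤ ‖z - 1‖ := fun i => by
      induction i with
      | zero => simp
      | succ i ih => rw [pow_succ]; exact norm_mul_sub_one_le ih le_rfl hz'.le
    by_contra hne
    have hsum : ∑ i ∈ Finset.range N, (z ^ i - 1) = -(N : C) := by
      have h0 : ∑ i ∈ Finset.range N, z ^ i = 0 := by
        have := geom_sum_mul z N
        rw [hzN, sub_self] at this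
        exact (mul_eq_zero.1 this).resolve_right (sub_ne_zero.2 hne)
      rw [Finset.sum_sub_distrib, h0]; simp
    have hb : ‖∑ i ∈ Finset.range N, (z ^ i - 1)‖ ≤ ‖z - 1‖ :=
      IsUltrametricDist.norm_sum_le_of_forall_le_of_nonneg (norm_nonneg _) fun i _ => hpow i
    rw [hsum, norm_neg, norm_natCast_eq_one hN] at hb
    exact absurd hb (not_le.2 hlt)
  exact (div_eq_one_iff_eq hy0).1 hz1

variable {ζ : PadicAlgCl p}

theorem norm_root_sub_one_pow (hζ : IsPrimitiveRoot ζ p) :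
    ‖ζ - 1‖ ^ (p - 1) = ‖(p : C)‖ := by
  have hp := (Fact.out : p.Prime)
  have hne : ζ - 1 ≠ 0 := sub_ne_zero.2 (hζ.ne_one hp.one_lt)
  have h1 : ‖ζ‖ = 1 := hζ.pow_eq_one |> fun h => by
    have h' := congrArg norm h
    rw [norm_pow, norm_one] at h'
    exact (pow_eq_one_iff_of_nonneg (norm_nonneg _) hp.ne_zero).1 h'
  have hy : ‖ζ - 1‖ ≤ 1 := by
    rw [sub_eq_add_neg]
    exact (IsUltrametricDist.norm_add_le_max _ _).trans (by simp [h1])
  obtain ⟨s, hs, hs1, hs2⟩ := exists_pow_expand hy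
  rw [add_sub_cancel, hζ.pow_eq_one, sub_self] at hs
  have h2 : (ζ - 1) ^ (p - 1) = -((p : C) * s) := by
    refine mul_right_cancel₀ hne ?_
    rw [← pow_succ, Nat.sub_add_cancel hp.one_le]
    linear_combination hs.symm
  have h3 : ‖ζ - 1‖ ^ (p - 1) = ‖(p : C)‖ * ‖s‖ := by rw [← norm_pow, h2, norm_neg, norm_mul]
  have h4 : ‖ζ - 1‖ < 1 := by
    by_contra hge
    rw [le_antisymm hy (not_lt.1 hge), one_pow] at h3
    exact absurd h3.symm.ge (not_le.2 ((mul_le_of_le_one_right (norm_nonneg _) hs1).trans_lt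
      norm_p_lt_one))
  rw [h3, norm_eq_one_of_sub_one_lt (hs2.trans_lt h4), mul_one]

theorem norm_root_sub_one_lt (hζ : IsPrimitiveRoot ζ p) : ‖ζ - 1‖ < 1 := by
  by_contra h
  exact absurd (norm_root_sub_one_pow hζ ▸ one_le_pow₀ (not_lt.1 h)) (not_le.2 norm_p_lt_one)

theorem norm_root_sub_one_pos (hζ : IsPrimitiveRoot ζ p) : 0 < ‖ζ - 1‖ :=
  norm_pos_iff.2 (sub_ne_zero.2 (hζ.ne_one (Fact.out : p.Prime).one_lt))

theorem norm_pow_sub_one (hζ : IsPrimitiveRoot ζ p) {m : ℕ} (hm : ¬ p ∣ m) :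
    ‖ζ ^ m - 1‖ = ‖ζ - 1‖ := by
  have hp := (Fact.out : p.Prime)
  have h' := norm_root_sub_one_pow
    (hζ.pow_of_coprime m ((hp.coprime_iff_not_dvd.2 hm).symm))
  rw [← norm_root_sub_one_pow hζ] at h'
  exact (pow_left_inj₀ (norm_nonneg _) (norm_nonneg _) (by have := hp.two_le; omega)).1 h'

/-- Some `p`-th root of an element close to one is close to one. -/
theorem exists_root_close (hζ : IsPrimitiveRoot ζ p) (α : C) :
    ∃ β : C, β ^ p = α ∧ ‖β - 1‖ ^ p ≤ ‖α - 1‖ := by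
  have hp := (Fact.out : p.Prime)
  obtain ⟨β, hβ⟩ := IsAlgClosed.exists_pow_nat_eq α hp.pos
  have hprod := hζ.pow_sub_pow_eq_prod_sub_mul β 1 hp.pos
  rw [hβ, one_pow] at hprod
  have hcard : (nthRootsFinset p (1 : C)).card = p := hζ.card_nthRootsFinset
  by_contra hno
  have hall : ∀ z ∈ nthRootsFinset p (1 : C), ‖α - 1‖ < ‖β - z * 1‖ ^ p := by
    intro z hz
    have hz' := (mem_nthRootsFinset hp.pos (1 : C)).1 hz
    have hz1 : ‖z‖ = 1 := by
      have h' := congrArg norm hz'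
      rw [norm_pow, norm_one] at h'
      exact (pow_eq_one_iff_of_nonneg (norm_nonneg _) hp.ne_zero).1 h'
    have hz0 : z ≠ 0 := norm_ne_zero_iff.1 (hz1.trans_ne one_ne_zero)
    by_contra hle
    refine hno ⟨β / z, by rw [div_pow, hβ, hz', div_one], ?_⟩
    rw [div_sub_one hz0, norm_div, hz1, div_one, ← mul_one z]
    exact not_lt.1 hle
  have hlt : ∏ _z ∈ nthRootsFinset p (1 : C), ‖α - 1‖ <
      ∏ z ∈ nthRootsFinset p (1 : C), ‖β - z * 1‖ ^ p := by
    rcases eq_or_ne α 1 with rfl | hne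
    · exfalso
      exact hno ⟨1, one_pow p, by simp [zero_pow hp.ne_zero]⟩
    · exact Finset.prod_lt_prod_of_nonempty (fun z _ => norm_pos_iff.2 (sub_ne_zero.2 hne)) hall
        (Finset.card_pos.1 (hcard.symm ▸ hp.pos))
  rw [Finset.prod_const, hcard, Finset.prod_pow, ← norm_prod, ← hprod] at hlt
  exact lt_irrefl _ hlt

/-- `p`-th roots close to one are unique. -/
theorem root_unique (hζ : IsPrimitiveRoot ζ p) {β β' : C} (h : β ^ p = β' ^ p)
    (hb : ‖β - 1‖ < ‖ζ - 1‖) (hb' : ‖β' - 1‖ < ‖ζ - 1‖) : β = β' := by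
  have hp := (Fact.out : p.Prime)
  have h1 := norm_eq_one_of_sub_one_lt (hb'.trans (norm_root_sub_one_lt hζ))
  have h0 : β' ≠ 0 := norm_ne_zero_iff.1 (h1.trans_ne one_ne_zero)
  have : NeZero p := ⟨hp.ne_zero⟩
  obtain ⟨i, hi, hz⟩ := hζ.eq_pow_of_pow_eq_one (ξ := β / β') (by
    rw [div_pow, h, div_self (pow_ne_zero _ h0)])
  rcases Nat.eq_zero_or_pos i with rfl | hpos
  · rw [pow_zero] at hz
    exact ((div_eq_one_iff_eq h0).1 hz.symm)
  · exfalso
    have h2 : ‖ζ ^ i - 1‖ < ‖ζ - 1‖ := by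
      rw [hz, div_sub_one h0, norm_div, h1, div_one, ← sub_sub_sub_cancel_right β β' 1,
        sub_eq_add_neg]
      exact (IsUltrametricDist.norm_add_le_max _ _).trans_lt
        (max_lt hb (by rwa [norm_neg]))
    rw [norm_pow_sub_one hζ fun hd => absurd (Nat.le_of_dvd hpos hd) (not_le.2 hi)] at h2
    exact lt_irrefl _ h2

end Fermat.Agent.FlatLocal.Engine
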