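import Fermat.Agent.FlatLocal.Tame
import Fermat.Agent.FlatLocal.Engine.Norm

/-!
# The tame field: levels, roots, residues
-/

set_option autoImplicit false

noncomputable section

namespace Fermat.Agent.FlatLocal.Engine

variable {p : ℕ} [Fact p.Prime] {e : ℕ} (D : TameField p e)

local notation "C" => PadicAlgCl p

/-- The level of `ζ - 1`. -/
def top (_D : TameField p e) : ℕ := e / (p - 1)

theorem top_mul : top D * (p - 1) = e := Nat.div_mul_cancel D.sub_one_dvd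

theorem top_pos : 0 < top D := by
  have h := top_mul D
  have := D.e_pos
  rcases Nat.eq_zero_or_pos (top D) with h0 | h0
  · rw [h0, zero_mul] at h; omega
  · exact h0

theorem top_lt (hp2 : p ≠ 2) : top D < e := by
  have h := top_mul D
  have := (Fact.out : p.Prime).two_le
  calc top D = top D * 1 := (mul_one _).symm
    _ < top D * (p - 1) := Nat.mul_lt_mul_of_pos_left (by omega) (top_pos D)
    _ = e := h

theorem varpi_ne_zero : D.ϖ ≠ 0 := fun h => by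
  have h' := D.pow_eq
  rw [h, zero_pow D.e_pos.ne'] at h'
  exact natCast_p_ne_zero (neg_eq_zero.1 h'.symm)

theorem norm_varpi_pos : 0 < ‖D.ϖ‖ := norm_pos_iff.2 (varpi_ne_zero D)

theorem norm_varpi_lt_one : ‖D.ϖ‖ < 1 := by
  by_contra h
  exact absurd (D.norm_varpi_pow ▸ one_le_pow₀ (not_lt.1 h)) (not_le.2 norm_p_lt_one)

theorem varpi_pow_lt_iff {i j : ℕ} : ‖D.ϖ‖ ^ i < ‖D.ϖ‖ ^ j ↔ j < i :=
  pow_lt_pow_iff_right_of_lt_one₀ (norm_varpi_pos D) (norm_varpi_lt_one D)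

theorem varpi_pow_le_of_le {i j : ℕ} (h : j ≤ i) : ‖D.ϖ‖ ^ i ≤ ‖D.ϖ‖ ^ j :=
  pow_le_pow_of_le_one (norm_varpi_pos D).le (norm_varpi_lt_one D).le h

theorem varpi_pow_inj {i j : ℕ} (h : ‖D.ϖ‖ ^ i = ‖D.ϖ‖ ^ j) : i = j :=
  pow_right_injective₀ (norm_varpi_pos D) (norm_varpi_lt_one D).ne h

theorem norm_zeta_sub_one : ‖D.zeta - 1‖ = ‖D.ϖ‖ ^ top D := by
  refine (pow_left_inj₀ (norm_nonneg _) (pow_nonneg (norm_nonneg _) _)
    (Nat.sub_ne_zero_of_lt (Fact.out : p.Prime).one_lt)).1 ?_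
  rw [norm_root_sub_one_pow D.zeta_spec, ← pow_mul, top_mul, D.norm_varpi_pow]

theorem exists_norm_eq {x : C} (hx : x ∈ D.K) (h0 : x ≠ 0) (h1 : ‖x‖ ≤ 1) :
    ∃ j : ℕ, ‖x‖ = ‖D.ϖ‖ ^ j := by
  obtain ⟨i, hi⟩ := D.exists_norm_K_eq hx h0
  have h : 0 ≤ i := by
    by_contra hlt
    exact absurd (hi ▸ h1) (not_le.2
      (one_lt_zpow_of_neg₀ (norm_varpi_pos D) (norm_varpi_lt_one D) (not_le.1 hlt)))
  exact ⟨i.toNat, by rw [hi, ← zpow_natCast, Int.toNat_of_nonneg h]⟩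

theorem le_succ_of_lt {x : C} (hx : x ∈ D.K) {l : ℕ} (h : ‖x‖ < ‖D.ϖ‖ ^ l) :
    ‖x‖ ≤ ‖D.ϖ‖ ^ (l + 1) := by
  rcases eq_or_ne x 0 with rfl | h0
  · rw [norm_zero]; positivity
  obtain ⟨j, hj⟩ := exists_norm_eq D hx h0
    (h.le.trans (pow_le_one₀ (norm_nonneg _) (norm_varpi_lt_one D).le))
  rw [hj] at h ⊢
  exact varpi_pow_le_of_le D ((varpi_pow_lt_iff D).1 h)

theorem mem_K_of_fix {x : C} (h : ∀ σ : Gp p, D.FixK σ → σ x = x) : x ∈ D.K := by
  rw [← InfiniteGalois.fixedField_fixingSubgroup D.K, IntermediateField.mem_fixedField_iff]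
  exact fun σ hσ => h σ fun y hy => (IntermediateField.mem_fixingSubgroup_iff _ _).1 hσ y hy

theorem fixK_one : D.FixK 1 := fun _ _ => rfl

theorem fixK_mul {σ τ : Gp p} (hσ : D.FixK σ) (hτ : D.FixK τ) : D.FixK (σ * τ) := fun x hx => by
  rw [AlgEquiv.mul_apply, hτ x hx, hσ x hx]

theorem fixK_inv {σ : Gp p} (hσ : D.FixK σ) : D.FixK σ⁻¹ := fun x hx => by
  conv_lhs => rw [← hσ x hx]
  rw [← AlgEquiv.mul_apply, inv_mul_cancel, AlgEquiv.one_apply]

theorem fixK_conj (g : Gp p) {σ : Gp p} (hσ : D.FixK σ) : D.FixK (g * σ * g⁻¹) := fun x hx => by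
  rw [AlgEquiv.mul_apply, AlgEquiv.mul_apply, hσ _ (D.map_mem_K g⁻¹ hx), ← AlgEquiv.mul_apply,
    mul_inv_cancel, AlgEquiv.one_apply]

theorem fixK_zeta {σ : Gp p} (hσ : D.FixK σ) (n : ℕ) : σ (D.zeta ^ n) = D.zeta ^ n :=
  hσ _ (pow_mem D.zeta_mem_K n)

theorem zeta_pow_eq_pow_val (n : ℕ) : D.zeta ^ n = D.zeta ^ (n : ZMod p).val := by
  rw [ZMod.val_natCast]
  exact (pow_eq_pow_mod n D.zeta_spec.pow_eq_one)

theorem zeta_pow_add (a b : ZMod p) :
    D.zeta ^ (a + b).val = D.zeta ^ a.val * D.zeta ^ b.val := by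
  rw [← pow_add, zeta_pow_eq_pow_val D (a.val + b.val), Nat.cast_add, ZMod.natCast_zmod_val,
    ZMod.natCast_zmod_val]

theorem zeta_pow_mul (a b : ZMod p) : D.zeta ^ (a * b).val = (D.zeta ^ a.val) ^ b.val := by
  rw [← pow_mul, zeta_pow_eq_pow_val D (a.val * b.val), Nat.cast_mul, ZMod.natCast_zmod_val,
    ZMod.natCast_zmod_val]

theorem zeta_pow_inj {a b : ZMod p} (h : D.zeta ^ a.val = D.zeta ^ b.val) : a = b :=
  ZMod.val_injective p (D.zeta_spec.pow_inj a.val_lt b.val_lt h)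

theorem exists_zeta_image (g : Gp p) :
    ∃ a : ZMod p, a ≠ 0 ∧ g D.zeta = D.zeta ^ a.val := by
  have : NeZero p := ⟨(Fact.out : p.Prime).ne_zero⟩
  obtain ⟨i, hi, h⟩ := D.zeta_spec.eq_pow_of_pow_eq_one (ξ := g D.zeta) (by
    rw [← map_pow, D.zeta_spec.pow_eq_one, map_one])
  refine ⟨(i : ZMod p), fun h0 => ?_, by rw [ZMod.val_natCast, Nat.mod_eq_of_lt hi, h]⟩
  have hi0 : i = 0 := by
    have := congrArg ZMod.val h0
    rwa [ZMod.val_natCast, Nat.mod_eq_of_lt hi, ZMod.val_zero] at this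
  rw [hi0, pow_zero] at h
  exact D.zeta_spec.ne_one (Fact.out : p.Prime).one_lt
    (g.injective (h.symm.trans (map_one g).symm))

/-- Elements close to one have `p`-th roots in `K`. -/
theorem exists_root_mem_K {x : C} (hx : x ∈ D.K) (h : ‖x‖ < ‖D.ϖ‖ ^ top D) :
    ∃ y ∈ D.K, y ≠ 0 ∧ y ^ p = 1 + (p : C) * x := by
  have hp := (Fact.out : p.Prime)
  obtain ⟨β, hβ, hb⟩ := exists_root_close D.zeta_spec (1 + (p : C) * x)
  have hlt : ‖β - 1‖ < ‖D.zeta - 1‖ := by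
    refine lt_of_pow_lt_pow_left₀ p (norm_nonneg _) (hb.trans_lt ?_)
    rw [add_sub_cancel_left, norm_mul, ← norm_root_sub_one_pow D.zeta_spec,
      ← pow_sub_one_mul hp.ne_zero ‖D.zeta - 1‖, norm_zeta_sub_one]
    exact mul_lt_mul_of_pos_left h (pow_pos (pow_pos (norm_varpi_pos D) _) _)
  refine ⟨β, mem_K_of_fix D fun σ hσ => root_unique D.zeta_spec ?_ ?_ hlt, ?_, hβ⟩
  · have hfix : σ (1 + (p : C) * x) = 1 + (p : C) * x :=
      hσ _ (add_mem (one_mem _) (mul_mem (natCast_mem _ p) hx))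
    rw [← map_pow, hβ, hfix]
  · rwa [show σ β - 1 = σ (β - 1) by rw [map_sub, map_one], norm_gal]
  · exact norm_ne_zero_iff.1
      ((norm_eq_one_of_sub_one_lt (hlt.trans (norm_root_sub_one_lt D.zeta_spec))).trans_ne
        one_ne_zero)

/-- No `p`-th power in `K` has exact level `l` below the top when `p ∤ e + l`. -/
theorem norm_lt_of_root_mem {x y : C} {l : ℕ} (hy : y ∈ D.K)
    (hpow : y ^ p = 1 + (p : C) * x) (hx : ‖x‖ ≤ ‖D.ϖ‖ ^ l) (hl : l < top D)
    (hdvd : ¬ p ∣ e + l) : ‖x‖ < ‖D.ϖ‖ ^ l := by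
  have hp := (Fact.out : p.Prime)
  refine lt_of_le_of_ne hx fun heq => ?_
  have hex : ‖(p : C) * x‖ = ‖D.ϖ‖ ^ (e + l) := by
    rw [norm_mul, heq, ← D.norm_varpi_pow, pow_add]
  have hlt1 : ‖(p : C) * x‖ < 1 := by
    rw [hex, ← pow_zero ‖D.ϖ‖, varpi_pow_lt_iff]
    have := D.e_pos
    omega
  have hy1 : ‖y‖ = 1 := by
    refine (pow_eq_one_iff_of_nonneg (norm_nonneg _) hp.ne_zero).1 ?_
    rw [← norm_pow]
    exact norm_eq_one_of_sub_one_lt (by rwa [hpow, add_sub_cancel_left])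
  have hz : ‖y - 1‖ ≤ 1 := by
    rw [sub_eq_add_neg]
    exact (IsUltrametricDist.norm_add_le_max _ _).trans (by simp [hy1])
  obtain ⟨s, hs, hs1, hs2⟩ := exists_pow_expand hz
  rw [add_sub_cancel, hpow, add_sub_cancel_left] at hs
  have hz0 : y - 1 ≠ 0 := fun h0 => by
    rw [h0, zero_pow hp.ne_zero, mul_zero, zero_mul, add_zero] at hs
    rw [hs, norm_zero] at hex
    exact (pow_pos (norm_varpi_pos D) _).ne hex
  obtain ⟨j, hj⟩ := exists_norm_eq D (sub_mem hy (one_mem _)) hz0 hz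
  have hps : ‖(p : C) * (y - 1) * s‖ ≤ ‖D.ϖ‖ ^ (e + j) := by
    rw [norm_mul, norm_mul, hj, ← D.norm_varpi_pow, ← pow_add]
    exact mul_le_of_le_one_right (pow_nonneg (norm_nonneg _) _) hs1
  have hzp : ‖(y - 1) ^ p‖ = ‖D.ϖ‖ ^ (j * p) := by rw [norm_pow, hj, ← pow_mul]
  have htm := top_mul D
  have hmul : j * p = j * (p - 1) + j := by
    rw [← Nat.mul_succ, Nat.succ_eq_add_one, Nat.sub_add_cancel hp.one_le]
  rcases lt_or_ge j (top D) with hjT | hjT
  · have h1 : j * p < e + j := by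
      have : j * (p - 1) < top D * (p - 1) :=
        Nat.mul_lt_mul_of_pos_right hjT (by have := hp.two_le; omega)
      omega
    have h2 : ‖(p : C) * (y - 1) * s‖ < ‖(y - 1) ^ p‖ :=
      hzp ▸ hps.trans_lt ((varpi_pow_lt_iff D).2 h1)
    have h3 := IsUltrametricDist.norm_add_eq_max_of_norm_ne_norm h2.ne'
    rw [← hs, max_eq_left h2.le, hex, hzp] at h3
    exact hdvd (varpi_pow_inj D h3 ▸ dvd_mul_left p j)
  · have h1 : e + top D ≤ j * p := by
      have : top D * (p - 1) ≤ j * (p - 1) := Nat.mul_le_mul_right _ hjT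
      omega
    have h2 : ‖(p : C) * x‖ ≤ ‖D.ϖ‖ ^ (e + top D) := by
      rw [hs]
      exact (IsUltrametricDist.norm_add_le_max _ _).trans
        (max_le (hzp ▸ varpi_pow_le_of_le D h1)
          (hps.trans (varpi_pow_le_of_le D (Nat.add_le_add_left hjT e))))
    rw [hex] at h2
    exact absurd h2 (not_le.2 ((varpi_pow_lt_iff D).2 (Nat.add_lt_add_left hl e)))

theorem res_inertia {τ : Gp p} (hτ : IsInertia τ) {x : C} (hx : ‖x‖ ≤ 1) :
    res (τ x) = res x :=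
  (res_eq_iff (by rwa [norm_gal]) hx).2 (hτ x hx)

theorem not_dvd_pow_sub_one {n : ℕ} (hn : 0 < n) : ¬ p ∣ p ^ n - 1 := fun h => by
  have h1 : 1 ≤ p ^ n := Nat.one_le_pow _ _ (Fact.out : p.Prime).pos
  have h2 : p ∣ p ^ n - (p ^ n - 1) := Nat.dvd_sub (dvd_pow_self p hn.ne') h
  rw [show p ^ n - (p ^ n - 1) = 1 by omega] at h2
  exact (Fact.out : p.Prime).one_lt.not_ge (Nat.le_of_dvd one_pos h2)

theorem norm_eq_one_of_pow_eq_one {z : C} {N : ℕ} (hN : N ≠ 0) (hz : z ^ N = 1) : ‖z‖ = 1 := by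
  have h := congrArg norm hz
  rw [norm_pow, norm_one] at h
  exact (pow_eq_one_iff_of_nonneg (norm_nonneg _) hN).1 h

theorem fixesUnity_inertia {τ : Gp p} (hτ : IsInertia τ) {d : ℕ} (hd : 0 < d) :
    FixesUnity d τ := fun z hz => by
  refine root_eq_of_sub_lt (not_dvd_pow_sub_one hd) (by rw [← map_pow, hz, map_one]) hz
    (hτ z (norm_eq_one_of_pow_eq_one ?_ hz).le)
  exact fun h0 => not_dvd_pow_sub_one (p := p) hd (h0 ▸ dvd_zero p)

/-- The tame character of an element. -/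
def xi (τ : Gp p) : C := τ D.ϖ / D.ϖ

theorem xi_pow (τ : Gp p) : xi D τ ^ e = 1 := by
  have h : τ (D.ϖ ^ e) = D.ϖ ^ e := by rw [D.pow_eq, map_neg, map_natCast]
  rw [xi, div_pow, ← map_pow, h, div_self (pow_ne_zero _ (varpi_ne_zero D))]

theorem norm_xi (τ : Gp p) : ‖xi D τ‖ = 1 :=
  norm_eq_one_of_pow_eq_one D.e_pos.ne' (xi_pow D τ)

/-- On inertia the cyclotomic character is a power of the tame one. -/
theorem res_xi_pow_top {τ : Gp p} (hτ : IsInertia τ) {a : ℕ} (ha : τ D.zeta = D.zeta ^ a) :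
    res (xi D τ) ^ top D = (a : Res p) := by
  set z : C := (D.zeta - 1) / D.ϖ ^ top D with hz
  have hz1 : ‖z‖ = 1 := by
    rw [hz, norm_div, norm_pow, norm_zeta_sub_one, div_self]
    exact pow_ne_zero _ (norm_varpi_pos D).ne'
  set S : C := ∑ i ∈ Finset.range a, D.zeta ^ i with hS
  have hzeta : ‖D.zeta‖ = 1 :=
    norm_eq_one_of_pow_eq_one (Fact.out : p.Prime).ne_zero D.zeta_spec.pow_eq_one
  have hS1 : ‖S‖ ≤ 1 :=
    IsUltrametricDist.norm_sum_le_of_forall_le_of_nonneg zero_le_one fun i _ => by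
      rw [norm_pow, hzeta, one_pow]
  have hkey : τ z * xi D τ ^ top D = S * z := by
    rw [hz, map_div₀, map_sub, map_one, map_pow, ha, ← geom_sum_mul, ← hS, xi, div_pow]
    have h1 : τ D.ϖ ≠ 0 := by simp [varpi_ne_zero D]
    field_simp [varpi_ne_zero D]
  have h := congrArg res hkey
  rw [res_mul (by rw [norm_gal, hz1]) (by rw [norm_pow, norm_xi, one_pow]),
    res_mul hS1 hz1.le, res_inertia hτ hz1.le, res_pow (norm_xi D τ).le, mul_comm] at h
  rw [mul_right_cancel₀ (res_ne_zero hz1) h]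
  have hSa : res S = res (a : C) := by
    refine (res_eq_iff hS1 (IsUltrametricDist.norm_natCast_le_one C a)).2 ?_
    have h2 : S - (a : C) = ∑ i ∈ Finset.range a, (D.zeta ^ i - 1) := by
      rw [Finset.sum_sub_distrib, Finset.sum_const, Finset.card_range, nsmul_one]
    rw [h2]
    refine (IsUltrametricDist.norm_sum_le_of_forall_le_of_nonneg (norm_nonneg _) fun i hi => ?_
      ).trans_lt (norm_root_sub_one_lt D.zeta_spec)
    clear hi
    induction i with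
    | zero => simp
    | succ i ih => rw [pow_succ]; exact norm_mul_sub_one_le ih le_rfl hzeta.le
  rw [hSa, res_natCast]

/-- A Frobenius element raised to the power `d`. -/
theorem exists_frobenius_pow (d : ℕ) :
    ∃ g : Gp p, FixesUnity d g ∧ ∀ x ∈ D.F, ‖x‖ ≤ 1 → res (g x) = res x ^ p ^ d := by
  have hp := (Fact.out : p.Prime)
  obtain ⟨g, hg, hcongr⟩ := TameField.exists_frobenius_congr (p := p)
  refine ⟨g ^ d, fun z hz => ?_, ?_⟩
  · rcases Nat.eq_zero_or_pos d with rfl | hd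
    · rw [pow_zero, AlgEquiv.one_apply]
    have hgd : ∀ m : ℕ, (g ^ m) z = z ^ p ^ m := by
      intro m
      induction m with
      | zero => simp
      | succ m ih =>
        rw [pow_succ', AlgEquiv.mul_apply, ih, map_pow, hg z _ (not_dvd_pow_sub_one hd) hz,
          ← pow_mul, ← pow_succ']
    rw [hgd, ← Nat.sub_add_cancel (Nat.one_le_pow d p hp.pos), pow_succ, hz, one_mul]
  · intro x _ hx1
    induction d with
    | zero => simp
    | succ m ih =>
      have hm : ‖(g ^ m) x‖ ≤ 1 := by rwa [norm_gal]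
      rw [pow_succ', AlgEquiv.mul_apply, (res_eq_iff (by rwa [norm_gal])
        (by rw [norm_pow]; exact pow_le_one₀ (norm_nonneg _) hm)).2 (hcongr _ hm),
        res_pow hm, ih, ← pow_mul, ← pow_succ]

end Fermat.Agent.FlatLocal.Engine
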