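import Fermat.Agent.FlatLocal.Engine.Field

/-!
# Leading terms of Kummer elements `1 + p x`
-/

set_option autoImplicit false

noncomputable section

namespace Fermat.Agent.FlatLocal.Engine

open Polynomial

variable {p : ℕ} [Fact p.Prime] {e : ℕ} (D : TameField p e)

instance algebraRes : Algebra (ZMod p) (Res p) := ZMod.algebra _ p

/-- The character `φ` has a Kummer element `1 + p x` with `x` of level `l` and leading term `w`. -/
def Lead (φ : Gp p → ZMod p) (l : ℕ) (w : Res p) : Prop :=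
  ∃ x ∈ D.K, ‖x‖ ≤ ‖D.ϖ‖ ^ l ∧ res (x / D.ϖ ^ l) = w ∧
    ∃ β : PadicAlgCl p, β ^ p = 1 + (p : PadicAlgCl p) * x ∧
      ∀ σ : Gp p, D.FixK σ → σ β = D.zeta ^ (φ σ).val * β

theorem norm_div_pow_le {x : PadicAlgCl p} {l : ℕ} (h : ‖x‖ ≤ ‖D.ϖ‖ ^ l) :
    ‖x / D.ϖ ^ l‖ ≤ 1 := by
  rw [norm_div, norm_pow]
  exact (div_le_one (pow_pos (norm_varpi_pos D) l)).2 h

theorem lead_zero (l : ℕ) : Lead D (fun _ => 0) l 0 :=
  ⟨0, zero_mem _, by rw [norm_zero]; positivity, by rw [zero_div, res_zero], 1,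
    by rw [one_pow, mul_zero, add_zero], fun σ _ => by simp⟩

theorem Lead.congr {φ ψ : Gp p → ZMod p} {l : ℕ} {w : Res p} (h : Lead D φ l w)
    (hφ : ∀ σ, D.FixK σ → φ σ = ψ σ) : Lead D ψ l w := by
  obtain ⟨x, hx, hxl, hw, β, hβ, hσ⟩ := h
  exact ⟨x, hx, hxl, hw, β, hβ, fun σ h' => hφ σ h' ▸ hσ σ h'⟩

theorem Lead.add {φ ψ : Gp p → ZMod p} {l : ℕ} {w w' : Res p} (h : Lead D φ l w)
    (h' : Lead D ψ l w') : Lead D (fun σ => φ σ + ψ σ) l (w + w') := by
  obtain ⟨x, hx, hxl, hw, β, hβ, hσ⟩ := h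
  obtain ⟨x', hx', hxl', hw', β', hβ', hσ'⟩ := h'
  have hprod : ‖(p : PadicAlgCl p) * x * x'‖ ≤ ‖D.ϖ‖ ^ (l + 1) := by
    rw [norm_mul, norm_mul, ← D.norm_varpi_pow]
    refine le_trans (mul_le_mul (mul_le_mul_of_nonneg_left hxl (by positivity)) hxl'
      (norm_nonneg _) (by positivity)) ?_
    rw [← pow_add, ← pow_add]
    exact varpi_pow_le_of_le D (by have := D.e_pos; omega)
  have hsum : ‖x + x'‖ ≤ ‖D.ϖ‖ ^ l :=
    (IsUltrametricDist.norm_add_le_max _ _).trans (max_le hxl hxl')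
  have hprod' := hprod.trans (varpi_pow_le_of_le D (Nat.le_succ l))
  refine ⟨x + x' + (p : PadicAlgCl p) * x * x',
    add_mem (add_mem hx hx') (mul_mem (mul_mem (natCast_mem _ p) hx) hx'),
    (IsUltrametricDist.norm_add_le_max _ _).trans (max_le hsum hprod'), ?_, β * β', ?_, ?_⟩
  · rw [add_div, add_div, res_add ?_ (norm_div_pow_le D hprod'),
      res_add (norm_div_pow_le D hxl) (norm_div_pow_le D hxl'), hw, hw',
      (res_eq_zero_iff (norm_div_pow_le D hprod')).2 ?_, add_zero]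
    · rw [norm_div, norm_pow, div_lt_one (pow_pos (norm_varpi_pos D) l)]
      exact hprod.trans_lt ((varpi_pow_lt_iff D).2 (Nat.lt_succ_self l))
    · rw [← add_div]
      exact norm_div_pow_le D hsum
  · rw [mul_pow, hβ, hβ']
    ring
  · intro σ h''
    rw [map_mul, hσ σ h'', hσ' σ h'', zeta_pow_add]
    ring

theorem Lead.nsmul {φ : Gp p → ZMod p} {l : ℕ} {w : Res p} (h : Lead D φ l w) (n : ℕ) :
    Lead D (fun σ => n • φ σ) l (n • w) := by
  induction n with
  | zero => simpa using lead_zero D l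
  | succ m ih => simpa only [succ_nsmul] using ih.add D h

theorem Lead.next {φ : Gp p → ZMod p} {l : ℕ} (h : Lead D φ l 0) :
    ∃ w, Lead D φ (l + 1) w := by
  obtain ⟨x, hx, hxl, hw, β, hβ, hσ⟩ := h
  have hlt : ‖x‖ < ‖D.ϖ‖ ^ l := by
    have h' := (res_eq_zero_iff (norm_div_pow_le D hxl)).1 hw
    rwa [norm_div, norm_pow, div_lt_one (pow_pos (norm_varpi_pos D) l)] at h'
  exact ⟨_, x, hx, le_succ_of_lt D hx hlt, rfl, β, hβ, hσ⟩

theorem Lead.eq_zero {φ : Gp p → ZMod p} {l : ℕ} {w : Res p} (h : Lead D φ l w) (hl : top D < l)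
    {σ : Gp p} (hσK : D.FixK σ) : φ σ = 0 := by
  obtain ⟨x, hx, hxl, -, β, hβ, hσ⟩ := h
  obtain ⟨y, hy, hy0, hyp⟩ := exists_root_mem_K D hx (hxl.trans_lt ((varpi_pow_lt_iff D).2 hl))
  have : NeZero p := ⟨(Fact.out : p.Prime).ne_zero⟩
  obtain ⟨i, -, hi⟩ := D.zeta_spec.eq_pow_of_pow_eq_one (ξ := β / y) (by
    rw [div_pow, hβ, ← hyp, div_self (pow_ne_zero _ hy0)])
  have hfix : σ β = β := hσK β (by
    rw [show β = D.zeta ^ i * y by rw [hi, div_mul_cancel₀ β hy0]]
    exact mul_mem (pow_mem D.zeta_mem_K i) hy)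
  have hβ0 : β ≠ 0 := fun h0 => hy0 (by
    rw [h0, zero_pow (Fact.out : p.Prime).ne_zero, ← hyp] at hβ
    exact pow_eq_zero_iff (Fact.out : p.Prime).ne_zero |>.1 hβ.symm)
  refine zeta_pow_inj D ?_
  rw [ZMod.val_zero, pow_zero]
  exact mul_right_cancel₀ hβ0 (by rw [one_mul, ← hσ σ hσK, hfix])

theorem Lead.unique {φ : Gp p → ZMod p} {l : ℕ} {w w' : Res p} (h : Lead D φ l w)
    (h' : Lead D φ l w') (hl : l < top D) (hdvd : ¬ p ∣ e + l) : w = w' := by
  have hneg : Lead D (fun _ => (0 : ZMod p)) l (w + (p - 1) • w') :=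
    (h.add D (h'.nsmul D (p - 1))).congr D fun σ _ => by
      rw [nsmul_eq_mul, Nat.cast_sub (Fact.out : p.Prime).one_le, ZMod.natCast_self, Nat.cast_one]
      ring
  obtain ⟨x, hx, hxl, hw, β, hβ, hσ⟩ := hneg
  have hβK : β ∈ D.K := mem_K_of_fix D fun σ hσK => by
    simpa using hσ σ hσK
  have hzero : w + (p - 1) • w' = 0 := by
    rw [← hw, res_eq_zero_iff (norm_div_pow_le D hxl), norm_div, norm_pow,
      div_lt_one (pow_pos (norm_varpi_pos D) l)]
    exact norm_lt_of_root_mem D hβK hβ hxl hl hdvd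
  rw [nsmul_eq_mul, Nat.cast_sub (Fact.out : p.Prime).one_le, CharP.cast_eq_zero, Nat.cast_one,
    zero_sub, neg_one_mul, ← sub_eq_add_neg, sub_eq_zero] at hzero
  exact hzero

theorem Lead.map {φ : Gp p → ZMod p} {l : ℕ} {w : Res p} (h : Lead D φ l w) {g : Gp p} {n : ℕ}
    (hg : ∀ x ∈ D.F, ‖x‖ ≤ 1 → res (g x) = res x ^ n) {a : ZMod p}
    (ha : g D.zeta = D.zeta ^ a.val) :
    Lead D (fun σ => a * φ (g⁻¹ * σ * g)) l (res (xi D g) ^ l * w ^ n) := by
  obtain ⟨x, hx, hxl, hw, β, hβ, hσ⟩ := h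
  refine ⟨g x, D.map_mem_K g hx, by rwa [norm_gal], ?_, g β, ?_, ?_⟩
  · have hu : ‖x / D.ϖ ^ l‖ ≤ 1 := norm_div_pow_le D hxl
    have hmem : x / D.ϖ ^ l ∈ D.F := div_mem (D.K_le hx) (pow_mem D.mem l)
    have heq : g x / D.ϖ ^ l = xi D g ^ l * g (x / D.ϖ ^ l) := by
      rw [xi, div_pow, map_div₀, map_pow]
      have h1 : g D.ϖ ≠ 0 := by simp [varpi_ne_zero D]
      field_simp [varpi_ne_zero D]
    rw [heq, res_mul (by rw [norm_pow, norm_xi, one_pow]) (by rwa [norm_gal]),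
      res_pow (norm_xi D g).le, hg _ hmem hu, hw]
  · rw [← map_pow, hβ, map_add, map_one, map_mul, map_natCast]
  · intro σ hσK
    have hc : D.FixK (g⁻¹ * σ * g) := by
      simpa using fixK_conj D g⁻¹ hσK
    have h1 : σ (g β) = g ((g⁻¹ * σ * g) β) := by
      rw [← AlgEquiv.mul_apply, ← AlgEquiv.mul_apply, mul_assoc g⁻¹, mul_inv_cancel_left]
    rw [h1, hσ _ hc, map_mul, map_pow, ha, zeta_pow_mul]

section Module

variable {V : Type} [AddCommGroup V] [Module (ZMod p) V] {c : Gp p → V}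

theorem lead_zmod_smul {f : Module.Dual (ZMod p) V} {l : ℕ} {w : Res p}
    (h : Lead D (fun σ => f (c σ)) l w) (b : ZMod p) :
    Lead D (fun σ => (b • f) (c σ)) l (b • w) := by
  have hb : b • w = b.val • w := by
    conv_lhs => rw [← ZMod.natCast_zmod_val b, Nat.cast_smul_eq_nsmul]
  rw [hb]
  exact (h.nsmul D b.val).congr D fun σ _ => by
    rw [LinearMap.smul_apply, smul_eq_mul, nsmul_eq_mul, ZMod.natCast_zmod_val]

/-- An operator on `V` and the scalar by which it multiplies leading terms at level `l`. -/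
def LeadOp (D : TameField p e) (c : Gp p → V) (l : ℕ) (A : Module.End (ZMod p) V)
    (η : Res p) : Prop :=
  ∀ (f : Module.Dual (ZMod p) V) (w : Res p), Lead D (fun σ => f (c σ)) l w →
    Lead D (fun σ => f (A (c σ))) l (η * w)

theorem LeadOp.poly_eval {l : ℕ} {A : Module.End (ZMod p) V} {η : Res p} (h : LeadOp D c l A η)
    (P : (ZMod p)[X]) : LeadOp D c l (Polynomial.aeval A P) (Polynomial.aeval η P) := by
  induction P using Polynomial.induction_on' with
  | add P Q hP hQ =>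
    intro f w hw
    rw [map_add, map_add, add_mul]
    exact ((hP f w hw).add D (hQ f w hw)).congr D fun σ _ => by
      rw [LinearMap.add_apply, map_add]
  | monomial n b =>
    have hpow : ∀ m : ℕ, LeadOp D c l (A ^ m) (η ^ m) := by
      intro m
      induction m with
      | zero =>
        intro f w hw
        simpa using hw
      | succ m ih =>
        intro f w hw
        have h1 := ih (f.comp A) (η * w) (h f w hw)
        rw [pow_succ η, mul_assoc]
        simpa [pow_succ', LinearMap.comp_apply] using h1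
    intro f w hw
    rw [aeval_monomial, aeval_monomial]
    have h1 := lead_zmod_smul D (f := f.comp (A ^ n)) (hpow n f w hw) b
    rw [← Algebra.smul_def, ← Algebra.smul_def, smul_mul_assoc]
    exact h1.congr D fun σ _ => by simp

/-- A level can be left when the operator and its scalar are separated by a polynomial. -/
theorem exists_lead_succ {l : ℕ} {A : Module.End (ZMod p) V} {η : Res p} (h : LeadOp D c l A η)
    (hη : IsIntegral (ZMod p) η) {P : (ZMod p)[X]} (hA : Polynomial.aeval A P = 0)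
    (hP : Polynomial.aeval η P ≠ 0) {f : Module.Dual (ZMod p) V} {w : Res p}
    (hw : Lead D (fun σ => f (c σ)) l w) : ∃ w', Lead D (fun σ => f (c σ)) (l + 1) w' := by
  obtain ⟨R, Q, hRQ⟩ := (minpoly.irreducible hη).coprime_iff_not_dvd.2
    (fun hd => hP (Polynomial.aeval_eq_zero_of_dvd_aeval_eq_zero hd (minpoly.aeval _ _)))
  have h1 : Polynomial.aeval A (R * minpoly (ZMod p) η) = 1 := by
    have := congrArg (Polynomial.aeval A) hRQ
    rwa [map_add, map_mul _ Q, mul_eq_zero_of_right _ hA, add_zero, map_one] at this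
  have h2 := (h.poly_eval D (R * minpoly (ZMod p) η)) f w hw
  rw [h1, map_mul, minpoly.aeval, mul_zero, zero_mul] at h2
  exact Lead.next D h2

theorem exists_lead_of_le {A : Module.End (ZMod p) V} {η : Res p}
    (h : ∀ l, LeadOp D c l A (η ^ l)) (hη : η ^ e = 1) {a b : ℕ} (hab : a ≤ b)
    (hsep : ∀ l, a ≤ l → l < b → ∃ P : (ZMod p)[X], Polynomial.aeval A P = 0 ∧
      Polynomial.aeval (η ^ l) P ≠ 0)
    {f : Module.Dual (ZMod p) V} (hf : ∃ w, Lead D (fun σ => f (c σ)) a w) :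
    ∃ w, Lead D (fun σ => f (c σ)) b w := by
  induction b, hab using Nat.le_induction with
  | base => exact hf
  | succ m hm ih =>
    obtain ⟨w, hw⟩ := ih fun l h1 h2 => hsep l h1 (h2.trans (Nat.lt_succ_self m))
    obtain ⟨P, hP1, hP2⟩ := hsep m hm (Nat.lt_succ_self m)
    refine exists_lead_succ D (h m) ?_ hP1 hP2 hw
    exact IsIntegral.of_pow D.e_pos (by
      rw [← pow_mul, mul_comm, pow_mul, hη, one_pow]; exact isIntegral_one)

/-- Conjugation by `g` gives an operation on leading terms. -/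
theorem lead_conj {g : Gp p} {n : ℕ}
    (hg : ∀ x ∈ D.F, ‖x‖ ≤ 1 → res (g x) = res x ^ n) {a : ZMod p}
    (ha : g D.zeta = D.zeta ^ a.val) {A : Module.End (ZMod p) V}
    (hA : ∀ σ : Gp p, D.FixK σ → A (c σ) = a • c (g⁻¹ * σ * g)) {l : ℕ}
    {f : Module.Dual (ZMod p) V} {w : Res p} (hw : Lead D (fun σ => f (c σ)) l w) :
    Lead D (fun σ => f (A (c σ))) l (res (xi D g) ^ l * w ^ n) :=
  (hw.map D hg ha).congr D fun σ hσ => by rw [hA σ hσ, map_smul, smul_eq_mul]

end Module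

end Fermat.Agent.FlatLocal.Engine
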