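import Fermat.Agent.FlatLocal.Criterion
import Fermat.Agent.FlatLocal.Engine.Lead
import Mathlib.RepresentationTheory.Homological.GroupCohomology.Hilbert90

/-!
# Allowed homomorphisms
-/

set_option autoImplicit false

noncomputable section

namespace Fermat.Agent.FlatLocal

open Engine

variable {p : ℕ} [Fact p.Prime] {e : ℕ}
variable {k : Type} [Field k]

local notation "C" => PadicAlgCl p

/-- All Kummer elements of the homomorphism `c` are `p`-th powers modulo `p`. -/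
def IsAllowed (D : TameField p e) (c : Gp p → k) : Prop :=
  ∀ f : k →+ ZMod p, ∃ α ∈ D.K, α ≠ 0 ∧ (∃ γ ∈ D.K, γ ≠ 0 ∧ ‖α / γ ^ p - 1‖ ≤ ‖(p : C)‖) ∧
    ∃ β : C, β ^ p = α ∧ ∀ σ : Gp p, D.FixK σ → σ β = D.zeta ^ (f (c σ)).val * β

/-- `c` is a homomorphism on `Gal(C/K)` on which the elements fixing `μ_{p^d - 1}` act by `χ`. -/
structure IsEigenHom (D : TameField p e) (d : ℕ) (χ : Gp p → k) (c : Gp p → k) : Prop where
  map_mul : ∀ σ τ : Gp p, D.FixK σ → D.FixK τ → c (σ * τ) = c σ + c τ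
  map_conj : ∀ g : Gp p, FixesUnity d g → ∀ σ : Gp p, D.FixK σ →
    c (g * σ * g⁻¹) = χ g * c σ

theorem IsAllowed.add (D : TameField p e) {c c' : Gp p → k} (hc : IsAllowed D c)
    (hc' : IsAllowed D c') : IsAllowed D (c + c') := by
  intro f
  obtain ⟨α, hα, hα0, ⟨γ, hγ, hγ0, hn⟩, β, hβ, hσ⟩ := hc f
  obtain ⟨α', hα', hα0', ⟨γ', hγ', hγ0', hn'⟩, β', hβ', hσ'⟩ := hc' f
  refine ⟨α * α', mul_mem hα hα', mul_ne_zero hα0 hα0',
    ⟨γ * γ', mul_mem hγ hγ', mul_ne_zero hγ0 hγ0', ?_⟩, β * β', by rw [mul_pow, hβ, hβ'], ?_⟩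
  · rw [mul_pow, mul_div_mul_comm]
    exact norm_mul_sub_one_le hn hn'
      (norm_eq_one_of_sub_one_lt (hn'.trans_lt norm_p_lt_one)).le
  · intro σ h
    rw [map_mul, hσ σ h, hσ' σ h, Pi.add_apply, map_add, zeta_pow_add]
    ring

theorem IsAllowed.smul (D : TameField p e) (a : k) {c : Gp p → k} (hc : IsAllowed D c) :
    IsAllowed D (a • c) := by
  intro f
  obtain ⟨α, hα, hα0, hγ, β, hβ, hσ⟩ := hc (f.comp (AddMonoidHom.mulLeft a))
  exact ⟨α, hα, hα0, hγ, β, hβ, hσ⟩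

/-- Hilbert's theorem ninety for a finite group of field automorphisms. -/
theorem exists_hilbert_ninety {K L : Type} [Field K] [Field L] [Algebra K L]
    [FiniteDimensional K L] (η : Gal(L/K) → Lˣ)
    (h : ∀ g g' : Gal(L/K), (η (g * g') : L) = g (η g') * η g) :
    ∃ b : Lˣ, ∀ g : Gal(L/K), g (b : L) / (b : L) = η g := by
  obtain ⟨b, hb⟩ := groupCohomology.isMulCoboundary₁_of_isMulCocycle₁_of_aut_to_units η
    fun g g' => Units.ext (h g g')
  exact ⟨b, fun g => by simpa using congrArg Units.val (hb g)⟩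

/-- A homomorphism trivial on `Gal(C/F)` is allowed, by Fontaine's criterion. -/
theorem isAllowed_of_hom (hp2 : p ≠ 2) (D : TameField p e) (hD : HasPointProperty D)
    (c : Gp p → k) (hc : ∀ σ τ : Gp p, D.FixK σ → D.FixK τ → c (σ * τ) = c σ + c τ)
    (hker : ∀ σ : Gp p, (∀ x ∈ D.F, σ x = x) → c σ = 0) :
    IsAllowed D c := by
  intro f
  have := D.finite
  let L : IntermediateField D.K C := IntermediateField.extendScalars D.K_le
  have : FiniteDimensional ℚ_[p] L := D.finite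
  have : FiniteDimensional D.K L := FiniteDimensional.right ℚ_[p] D.K L
  let lift : Gal(L/D.K) → Gp p := fun g => (g.liftNormal C).restrictScalars ℚ_[p]
  have hlift : ∀ g, D.FixK (lift g) := fun g x hx => (g.liftNormal C).commutes (⟨x, hx⟩ : D.K)
  have hliftL : ∀ (g : Gal(L/D.K)) (x : L), lift g (x : C) = ((g x : L) : C) := fun g x =>
    g.liftNormal_commutes C x
  have hagree : ∀ σ τ : Gp p, D.FixK σ → D.FixK τ → (∀ x ∈ D.F, σ x = τ x) → c σ = c τ := by
    intro σ τ hσ hτ h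
    have h1 : c (τ⁻¹ * σ) = 0 := hker _ fun x hx => by
      rw [AlgEquiv.mul_apply, h x hx, ← AlgEquiv.mul_apply, inv_mul_cancel, AlgEquiv.one_apply]
    have h2 := hc τ (τ⁻¹ * σ) hτ (fixK_mul D (fixK_inv D hτ) hσ)
    rwa [mul_inv_cancel_left, h1, add_zero] at h2
  have hzL : D.zeta ∈ L := D.K_le D.zeta_mem_K
  have hz0 : (⟨D.zeta, hzL⟩ : L) ≠ 0 := fun h =>
    D.zeta_spec.ne_zero (Fact.out : p.Prime).ne_zero (congrArg Subtype.val h)
  let z : Lˣ := Units.mk0 ⟨D.zeta, hzL⟩ hz0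
  let ξ : Gal(L/D.K) → Lˣ := fun g => z ^ (f (c (lift g))).val
  have hξcoe : ∀ g, (((ξ g : Lˣ) : L) : C) = D.zeta ^ (f (c (lift g))).val := fun g => by
    simp [ξ, z]
  have hcoc : ∀ g h : Gal(L/D.K), (ξ (g * h) : L) = g (ξ h) * ξ g := by
    intro g h
    refine Subtype.ext ?_
    rw [MulMemClass.coe_mul, hξcoe, hξcoe, ← hliftL, hξcoe, fixK_zeta D (hlift g)]
    have heq : c (lift (g * h)) = c (lift g) + c (lift h) := by
      rw [← hc _ _ (hlift g) (hlift h)]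
      refine hagree _ _ (hlift _) (fixK_mul D (hlift g) (hlift h)) fun x hx => ?_
      rw [AlgEquiv.mul_apply, hliftL _ (⟨x, hx⟩ : L), hliftL _ (⟨x, hx⟩ : L),
        hliftL, AlgEquiv.mul_apply]
    rw [heq, map_add, zeta_pow_add]
    ring
  obtain ⟨b, hb⟩ := exists_hilbert_ninety ξ hcoc
  set β : C := ((b : L) : C) with hβdef
  have hβF : β ∈ D.F := (b : L).2
  have hβ0 : β ≠ 0 := fun h => b.ne_zero (Subtype.ext h)
  have hσ : ∀ σ : Gp p, D.FixK σ → σ β = D.zeta ^ (f (c σ)).val * β := by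
    intro σ hσK
    let σK : C ≃ₐ[D.K] C := AlgEquiv.ofRingEquiv (f := σ.toRingEquiv) fun x => hσK x x.2
    have hmem : ∀ x : L, σK (x : C) ∈ L := fun x => D.normal σ x x.2
    let g₀ : L →ₐ[D.K] L := (σK.toAlgHom.comp L.val).codRestrict L.toSubalgebra hmem
    let g : Gal(L/D.K) := AlgEquiv.ofBijective g₀ g₀.bijective
    have hg : ∀ x : L, lift g (x : C) = σ (x : C) := fun x => hliftL g x
    have h1 := congrArg (fun u : L => (u : C)) (hb g)
    simp only [IntermediateField.coe_div] at h1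
    rw [hξcoe, ← hliftL, hg, ← hβdef, div_eq_iff hβ0] at h1
    rw [h1, hagree _ σ (hlift g) hσK fun x hx => hg ⟨x, hx⟩]
  have hα : β ^ p ∈ D.K := mem_K_of_fix D fun σ hσK => by
    rw [map_pow, hσ σ hσK, mul_pow, ← pow_mul, mul_comm _ p, pow_mul, D.zeta_spec.pow_eq_one,
      one_pow, one_mul]
  exact ⟨β ^ p, hα, pow_ne_zero _ hβ0, exists_pow_congr hp2 D hD hα (pow_ne_zero _ hβ0) hβF rfl,
    β, rfl, hσ⟩

/-- An allowed homomorphism has leading terms of level zero. -/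
theorem IsAllowed.exists_lead {D : TameField p e} {c : Gp p → k} (hc : IsAllowed D c)
    (f : k →+ ZMod p) : ∃ w, Lead D (fun σ => f (c σ)) 0 w := by
  obtain ⟨α, hα, -, ⟨γ, hγ, hγ0, hn⟩, β, hβ, hσ⟩ := hc f
  refine ⟨_, (α / γ ^ p - 1) / (p : C),
    div_mem (sub_mem (div_mem hα (pow_mem hγ p)) (one_mem _)) (natCast_mem _ p), ?_, rfl,
    β / γ, ?_, ?_⟩
  · rw [pow_zero, norm_div]
    exact (div_le_one norm_p_pos).2 hn
  · rw [div_pow, hβ, mul_div_cancel₀ _ natCast_p_ne_zero, add_sub_cancel]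
  · intro σ h
    rw [map_div₀, hσ σ h, h γ hγ, mul_div_assoc]

end Fermat.Agent.FlatLocal
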