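import Fermat.Agent.FlatLocal.Engine.Lead
import Mathlib.LinearAlgebra.Dual.Lemmas
import Mathlib.FieldTheory.Finiteness
import Mathlib.FieldTheory.IntermediateField.Adjoin.Basic

/-!
# Counting characters by their leading terms
-/

set_option autoImplicit false

noncomputable section

namespace Fermat.Agent.FlatLocal.Engine

open Polynomial

variable {p : ℕ} [Fact p.Prime] {e : ℕ} (D : TameField p e)
variable {V : Type} [AddCommGroup V] [Module (ZMod p) V] {c : Gp p → V}

/-- The span of the image of `c` on `Gal(C/K)`. -/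
def imageSpan (D : TameField p e) (c : Gp p → V) : Submodule (ZMod p) V :=
  Submodule.span (ZMod p) (c '' {σ | D.FixK σ})

theorem mem_imageSpan {σ : Gp p} (hσ : D.FixK σ) : c σ ∈ imageSpan D c :=
  Submodule.subset_span ⟨σ, hσ, rfl⟩

theorem natCard_imageSpan_le [Finite V] {l0 : ℕ} (hl0 : l0 < top D) (hdvd : ¬ p ∣ e + l0)
    (hlow : ∀ f : Module.Dual (ZMod p) V, ∃ w, Lead D (fun σ => f (c σ)) l0 w)
    (hhigh : ∀ (f : Module.Dual (ZMod p) V) (w : Res p),
      Lead D (fun σ => f (c σ)) (l0 + 1) w → ∀ σ : Gp p, D.FixK σ → f (c σ) = 0)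
    {A : Module.End (ZMod p) V} {η : Res p} (hA : LeadOp D c l0 A η)
    {M : Module.End (ZMod p) V} {ν : Res p} (hν : ν ≠ 0) {d : ℕ} (hd : 0 < d)
    (hM : ∀ (f : Module.Dual (ZMod p) V) (w : Res p), Lead D (fun σ => f (c σ)) l0 w →
      Lead D (fun σ => f (M (c σ))) l0 (ν * w ^ p ^ d))
    {r : ℕ} {q : ℕ → (ZMod p)[X]}
    (hrel : ∑ i ∈ Finset.range (r + 1), M ^ i * Polynomial.aeval A (q i) = 0)
    (hq : Polynomial.aeval η (q r) ≠ 0) :
    Nat.card (imageSpan D c) ≤ p ^ (d * r) := by
  classical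
  have hp := (Fact.out : p.Prime)
  have huniq : ∀ {f : Module.Dual (ZMod p) V} {w w' : Res p},
      Lead D (fun σ => f (c σ)) l0 w → Lead D (fun σ => f (c σ)) l0 w' → w = w' :=
    fun h h' => h.unique D h' hl0 hdvd
  -- the leading term is an additive map
  let Λ₀ : Module.Dual (ZMod p) V →+ Res p :=
    AddMonoidHom.mk' (fun f => (hlow f).choose) fun f g =>
      huniq (hlow (f + g)).choose_spec
        (((hlow f).choose_spec.add D (hlow g).choose_spec).congr D fun σ _ => rfl)
  let Λ : Module.Dual (ZMod p) V →ₗ[ZMod p] Res p := AddMonoidHom.toZModLinearMap p Λ₀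
  have hΛ : ∀ f, Lead D (fun σ => f (c σ)) l0 (Λ f) := fun f => (hlow f).choose_spec
  have hker : LinearMap.ker Λ = (imageSpan D c).dualAnnihilator := by
    ext f
    rw [LinearMap.mem_ker, Submodule.mem_dualAnnihilator]
    constructor
    · intro h0
      have hz := hΛ f
      rw [h0] at hz
      obtain ⟨w, hw⟩ := hz.next D
      have hle : imageSpan D c ≤ LinearMap.ker f := Submodule.span_le.2 (by
        rintro v ⟨σ, hσ, rfl⟩
        exact hhigh f w hw σ hσ)
      exact fun v hv => hle hv
    · intro h0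
      exact huniq (hΛ f) ((lead_zero D l0).congr D fun σ hσ => (h0 _ (mem_imageSpan D hσ)).symm)
  have hcard : Nat.card (imageSpan D c) = Nat.card (LinearMap.range Λ) := by
    have e1 := (Submodule.quotEquivOfEq _ _ hker).symm.trans Λ.quotKerEquivRange
    have e2 := (Subspace.quotAnnihilatorEquiv (imageSpan D c)).symm.trans e1
    rw [← Nat.card_congr e2.toEquiv, Module.natCard_eq_pow_finrank (K := ZMod p),
      Module.natCard_eq_pow_finrank (K := ZMod p) (V := Module.Dual (ZMod p) (imageSpan D c)),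
      Subspace.dual_finrank_eq]
  -- powers of `M`
  have hpow : ∀ i : ℕ, ∃ νi : Res p, νi ≠ 0 ∧ ∀ (f : Module.Dual (ZMod p) V) (w : Res p),
      Lead D (fun σ => f (c σ)) l0 w →
        Lead D (fun σ => f ((M ^ i) (c σ))) l0 (νi * w ^ p ^ (d * i)) := by
    intro i
    induction i with
    | zero => exact ⟨1, one_ne_zero, fun f w hw => by simpa using hw⟩
    | succ i ih =>
      obtain ⟨νi, hνi, hi⟩ := ih
      refine ⟨ν * νi ^ p ^ d, mul_ne_zero hν (pow_ne_zero _ hνi), fun f w hw => ?_⟩
      have h := hM (f.comp (M ^ i)) _ (hi f w hw)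
      rw [mul_pow, ← pow_mul, ← pow_add, ← mul_assoc] at h
      rw [Nat.mul_succ]
      exact h.congr D fun σ _ => by rw [pow_succ, Module.End.mul_apply]; rfl
  choose νs hνs hνspec using hpow
  let P : (Res p)[X] :=
    ∑ i ∈ Finset.range (r + 1),
      Polynomial.C (Polynomial.aeval η (q i) * νs i) * Polynomial.X ^ p ^ (d * i)
  have hroot : ∀ f, P.IsRoot (Λ f) := by
    intro f
    have hsum : ∀ n : ℕ, Lead D
        (fun σ => f ((∑ i ∈ Finset.range n, M ^ i * Polynomial.aeval A (q i)) (c σ))) l0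
        (∑ i ∈ Finset.range n, Polynomial.aeval η (q i) * νs i * Λ f ^ p ^ (d * i)) := by
      intro n
      induction n with
      | zero => simpa using lead_zero D l0
      | succ n ih =>
        rw [Finset.sum_range_succ, Finset.sum_range_succ]
        have h := hA.poly_eval D (q n) (f.comp (M ^ n)) _ (hνspec n f _ (hΛ f))
        rw [← mul_assoc] at h
        exact (ih.add D h).congr D fun σ _ => by
          rw [LinearMap.add_apply, map_add, Module.End.mul_apply]; rfl
    have h := hsum (r + 1)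
    rw [hrel] at h
    have h0 := h.unique D ((lead_zero D l0).congr D fun σ _ => by simp) hl0 hdvd
    simpa [P, Polynomial.IsRoot, Polynomial.eval_finsetSum] using h0
  have hmono : ∀ i ∈ Finset.range (r + 1), p ^ (d * i) ≤ p ^ (d * r) := fun i hi =>
    Nat.pow_le_pow_right hp.pos (Nat.mul_le_mul_left d (Nat.lt_succ_iff.1 (Finset.mem_range.1 hi)))
  have hne : P ≠ 0 := by
    intro h0
    have h := congrArg (fun Q : (Res p)[X] => Q.coeff (p ^ (d * r))) h0
    simp only [P, Polynomial.finsetSum_coeff, Polynomial.coeff_C_mul_X_pow,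
      Polynomial.coeff_zero] at h
    rw [Finset.sum_eq_single r] at h
    · rw [if_pos rfl] at h
      exact mul_ne_zero hq (hνs r) h
    · intro i _ hir
      exact if_neg fun heq => hir (Nat.eq_of_mul_eq_mul_left hd
        (Nat.pow_right_injective hp.two_le heq)).symm
    · exact fun hr => absurd (Finset.self_mem_range_succ r) hr
  have hdeg : P.natDegree ≤ p ^ (d * r) :=
    Polynomial.natDegree_sum_le_of_forall_le _ _ fun i hi =>
      (Polynomial.natDegree_C_mul_X_pow_le _ _).trans (hmono i hi)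
  rw [hcard]
  calc Nat.card (LinearMap.range Λ) ≤ Nat.card P.roots.toFinset := by
        refine Nat.card_le_card_of_injective (fun v => ⟨v.1, ?_⟩) fun u v h =>
          Subtype.ext (congrArg (fun z : P.roots.toFinset => (z : Res p)) h)
        obtain ⟨f, hf⟩ := LinearMap.mem_range.1 v.2
        rw [Multiset.mem_toFinset, Polynomial.mem_roots hne, ← hf]
        exact hroot f
    _ = P.roots.toFinset.card := Nat.card_eq_finsetCard _
    _ ≤ p ^ (d * r) := ((Multiset.toFinset_card_le _).trans (Polynomial.card_roots' P)).trans hdeg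

variable {k : Type} [Field k] [Algebra (ZMod p) k] [Module k V] [IsScalarTower (ZMod p) k V]

/-- A subspace stable under `λ` and `μ` and not larger than the field they generate is a line. -/
theorem exists_span_of_card_le [Finite k] {I : Submodule (ZMod p) V} [Finite I]
    (a b : k) (ha : ∀ v ∈ I, a • v ∈ I) (hb : ∀ v ∈ I, b • v ∈ I)
    (hcard : Nat.card I ≤ Nat.card (IntermediateField.adjoin
      (IntermediateField.adjoin (ZMod p) ({a} : Set k)) ({b} : Set k))) :
    ∃ v : V, ∀ x ∈ I, ∃ s : k, x = s • v := by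
  by_cases hI : I = ⊥
  · exact ⟨0, fun x hx => ⟨0, by rw [hI, Submodule.mem_bot] at hx; rw [hx, zero_smul]⟩⟩
  obtain ⟨v, hv, hv0⟩ := Submodule.exists_mem_ne_zero_of_ne_bot hI
  let S : Subalgebra (ZMod p) k :=
    { carrier := {x | ∀ u ∈ I, x • u ∈ I}
      mul_mem' := fun {x y} hx hy u hu => by rw [mul_smul]; exact hx _ (hy u hu)
      add_mem' := fun {x y} hx hy u hu => by rw [add_smul]; exact add_mem (hx u hu) (hy u hu)
      algebraMap_mem' := fun z u hu => by rw [algebraMap_smul]; exact I.smul_mem z hu }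
  set R₀ := IntermediateField.adjoin (ZMod p) ({a} : Set k)
  have hR₀ : ∀ x ∈ R₀, x ∈ S := by
    intro x hx
    have hx' : x ∈ R₀.toSubalgebra := hx
    rw [IntermediateField.adjoin_simple_toSubalgebra_of_isAlgebraic (Algebra.IsAlgebraic.isAlgebraic a)]
      at hx'
    exact Algebra.adjoin_le (Set.singleton_subset_iff.2 (show a ∈ S from ha)) hx'
  set R := IntermediateField.adjoin R₀ ({b} : Set k)
  have hR : ∀ x ∈ R, ∀ u ∈ I, x • u ∈ I := by
    intro x hx
    have hx' : x ∈ R.toSubalgebra := hx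
    rw [IntermediateField.adjoin_simple_toSubalgebra_of_isAlgebraic (Algebra.IsAlgebraic.isAlgebraic b),
      Algebra.adjoin_singleton_eq_range_aeval] at hx'
    obtain ⟨Q, rfl⟩ := hx'
    rw [AlgHom.toRingHom_eq_coe, RingHom.coe_coe, Polynomial.aeval_eq_sum_range]
    refine show _ ∈ S from sum_mem fun i _ => ?_
    rw [Algebra.smul_def]
    exact mul_mem (hR₀ _ (Q.coeff i).2) (pow_mem (show b ∈ S from hb) i)
  refine ⟨v, fun x hx => ?_⟩
  have hinj : Function.Injective (fun r : R => (⟨(r : k) • v, hR r r.2 v hv⟩ : I)) := fun r s h =>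
    Subtype.ext (smul_left_injective k hv0 (congrArg (fun z : I => (z : V)) h))
  obtain ⟨r, hr⟩ := (hinj.bijective_of_nat_card_le hcard).2 ⟨x, hx⟩
  exact ⟨r, (congrArg (fun z : I => (z : V)) hr).symm⟩

end Fermat.Agent.FlatLocal.Engine
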