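import Fermat.Agent.FlatLocal.Engine.Allowed
import Fermat.Agent.FlatLocal.Engine.Count
import Mathlib.FieldTheory.Finite.GaloisField

/-!
# Eigen-homomorphisms: the line bound
-/

set_option autoImplicit false

noncomputable section

namespace Fermat.Agent.FlatLocal.Engine

open Polynomial

variable {p : ℕ} [Fact p.Prime] {e : ℕ} (D : TameField p e)
variable {k : Type} [Field k] [Algebra (ZMod p) k]
variable {V : Type} [AddCommGroup V] [Module (ZMod p) V] [Module k V]
  [IsScalarTower (ZMod p) k V]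

variable (p) in
/-- Scalar multiplication as an operator over the prime field. -/
abbrev scalarOp (V : Type) [AddCommGroup V] [Module (ZMod p) V] [Module k V]
    [IsScalarTower (ZMod p) k V] : k →ₐ[ZMod p] Module.End (ZMod p) V :=
  Algebra.lsmul (ZMod p) (ZMod p) V

theorem scalarOp_conj {c : Gp p → V} {χ : Gp p → k} {g : Gp p} {a : ZMod p}
    (hconj : ∀ σ : Gp p, D.FixK σ → c (g * σ * g⁻¹) = χ g • c σ) (hχ : χ g ≠ 0)
    {σ : Gp p} (hσ : D.FixK σ) :
    scalarOp p V (algebraMap (ZMod p) k a / χ g) (c σ) = a • c (g⁻¹ * σ * g) := by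
  have h : D.FixK (g⁻¹ * σ * g) := by simpa using fixK_conj D g⁻¹ hσ
  have h1 := hconj _ h
  rw [show g * (g⁻¹ * σ * g) * g⁻¹ = σ by group] at h1
  rw [Algebra.lsmul_coe, h1]
  beta_reduce
  rw [smul_smul, div_mul_cancel₀ _ hχ, algebraMap_smul]

theorem leadOp_inertia {c : Gp p → V} {χ : Gp p → k} {τ : Gp p} (hτ : IsInertia τ) {a : ZMod p}
    (ha : τ D.zeta = D.zeta ^ a.val)
    (hconj : ∀ σ : Gp p, D.FixK σ → c (τ * σ * τ⁻¹) = χ τ • c σ) (hχ : χ τ ≠ 0) (l : ℕ) :
    LeadOp D c l (scalarOp p V (algebraMap (ZMod p) k a / χ τ)) (res (xi D τ) ^ l) := by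
  intro f w hw
  have h := lead_conj D (n := 1) (fun x _ hx => by rw [pow_one]; exact res_inertia hτ hx) ha
    (fun σ hσ => scalarOp_conj D hconj hχ hσ) hw
  rwa [pow_one] at h

theorem res_xi_pow (τ : Gp p) : res (xi D τ) ^ e = 1 := by
  rw [← res_pow (norm_xi D τ).le, xi_pow, res_one]

theorem res_xi_pow_eq_one {τ : Gp p} (hτ : IsPrimitiveRoot (τ D.ϖ / D.ϖ) e) {l : ℕ}
    (h : res (xi D τ) ^ l = 1) : e ∣ l := by
  rw [← res_pow (norm_xi D τ).le, ← res_one,
    res_eq_iff (by rw [norm_pow, norm_xi, one_pow]) norm_one.le] at h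
  have h1 : xi D τ ^ l = 1 :=
    root_eq_of_sub_lt D.not_dvd (by rw [← pow_mul, mul_comm, pow_mul, xi_pow, one_pow])
      (one_pow e) h
  exact (hτ.pow_eq_one_iff_dvd l).1 h1

theorem isPrimitiveRoot_res_xi {τ : Gp p} (hτ : IsPrimitiveRoot (τ D.ϖ / D.ϖ) e) :
    IsPrimitiveRoot (res (xi D τ)) e :=
  ⟨res_xi_pow D τ, fun _ h => res_xi_pow_eq_one D hτ h⟩

theorem exists_relation [Finite k] (a b : k) :
    ∃ (r : ℕ) (q : ℕ → (ZMod p)[X]), q r = 1 ∧
      ∑ i ∈ Finset.range (r + 1), b ^ i * Polynomial.aeval a (q i) = 0 ∧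
      Nat.card (IntermediateField.adjoin
        (IntermediateField.adjoin (ZMod p) ({a} : Set k)) ({b} : Set k)) =
        Nat.card (IntermediateField.adjoin (ZMod p) ({a} : Set k)) ^ r := by
  classical
  set R₀ := IntermediateField.adjoin (ZMod p) ({a} : Set k)
  have hb : IsIntegral R₀ b := Algebra.IsIntegral.isIntegral b
  set Q := minpoly R₀ b with hQ
  have hcoeff : ∀ i, ∃ P : (ZMod p)[X], Polynomial.aeval a P = (Q.coeff i : k) := by
    intro i
    have h : (Q.coeff i : k) ∈ R₀.toSubalgebra := (Q.coeff i).2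
    rw [IntermediateField.adjoin_simple_toSubalgebra_of_isAlgebraic
      (Algebra.IsAlgebraic.isAlgebraic a), Algebra.adjoin_singleton_eq_range_aeval] at h
    exact h
  choose P hP using hcoeff
  refine ⟨Q.natDegree, fun i => if i = Q.natDegree then 1 else P i, if_pos rfl, ?_, ?_⟩
  · have h0 := minpoly.aeval R₀ b
    rw [← hQ, Polynomial.aeval_eq_sum_range] at h0
    refine Eq.trans (Finset.sum_congr rfl fun i hi => ?_) h0
    rw [Algebra.smul_def, mul_comm]
    congr 1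
    dsimp only
    split_ifs with hi'
    · rw [hi', (minpoly.monic hb).coeff_natDegree, map_one, map_one]
    · exact hP i
  · rw [Module.natCard_eq_pow_finrank (K := R₀), IntermediateField.adjoin.finrank hb]

/-- Two allowed eigen-homomorphisms with leading terms confined to one level are dependent. -/
theorem exists_dependent [Finite k] {d : ℕ} (hd : 0 < d)
    {χ c₁ c₂ : Gp p → k} (h₁ : IsEigenHom D d χ c₁) (ha₁ : IsAllowed D c₁)
    (h₂ : IsEigenHom D d χ c₂) (ha₂ : IsAllowed D c₂)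
    {τ : Gp p} (hτ : IsInertia τ) {a : ZMod p} (ha : τ D.zeta = D.zeta ^ a.val) (hχτ : χ τ ≠ 0)
    {l0 : ℕ} (hl0 : l0 < top D) (hdvd : ¬ p ∣ e + l0)
    (hcard : p ^ d ≤ Nat.card (IntermediateField.adjoin (ZMod p)
      ({algebraMap (ZMod p) k a / χ τ} : Set k)))
    (hsep : ∀ l, l ≤ top D → l ≠ l0 → ∃ P : (ZMod p)[X],
      Polynomial.aeval (algebraMap (ZMod p) k a / χ τ) P = 0 ∧
      Polynomial.aeval (res (xi D τ) ^ l) P ≠ 0) :
    ∃ a b : k, (a ≠ 0 ∨ b ≠ 0) ∧ ∀ σ : Gp p, D.FixK σ → a * c₁ σ + b * c₂ σ = 0 := by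
  obtain ⟨g, hgd, hg⟩ := exists_frobenius_pow D d
  rcases eq_or_ne (χ g) 0 with hχg | hχg
  · refine ⟨1, 0, Or.inl one_ne_zero, fun σ hσ => ?_⟩
    have h : D.FixK (g⁻¹ * σ * g) := by simpa using fixK_conj D g⁻¹ hσ
    have h1 := h₁.map_conj g hgd _ h
    rw [show g * (g⁻¹ * σ * g) * g⁻¹ = σ by group, hχg, zero_mul] at h1
    rw [h1, mul_zero, zero_mul, add_zero]
  obtain ⟨b, -, hb⟩ := exists_zeta_image D g
  set c : Gp p → k × k := fun σ => (c₁ σ, c₂ σ) with hc
  have hconj : ∀ h : Gp p, FixesUnity d h → ∀ σ : Gp p, D.FixK σ →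
      c (h * σ * h⁻¹) = χ h • c σ := fun h hh σ hσ =>
    Prod.ext (h₁.map_conj h hh σ hσ) (h₂.map_conj h hh σ hσ)
  have hconjτ := hconj τ (fixesUnity_inertia hτ hd)
  set x : k := algebraMap (ZMod p) k a / χ τ
  set y : k := algebraMap (ZMod p) k b / χ g
  have hA : ∀ l, LeadOp D c l (scalarOp p (k × k) x) (res (xi D τ) ^ l) :=
    leadOp_inertia D hτ ha hconjτ hχτ
  have hzero : ∀ f : Module.Dual (ZMod p) (k × k), ∃ w, Lead D (fun σ => f (c σ)) 0 w := by
    intro f
    obtain ⟨w₁, hw₁⟩ := ha₁.exists_lead (f.toAddMonoidHom.comp (AddMonoidHom.inl k k))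
    obtain ⟨w₂, hw₂⟩ := ha₂.exists_lead (f.toAddMonoidHom.comp (AddMonoidHom.inr k k))
    exact ⟨w₁ + w₂, (hw₁.add D hw₂).congr D fun σ _ => by simp [c, ← map_add]⟩
  have hclimb : ∀ {l₁ l₂ : ℕ}, l₁ ≤ l₂ → (∀ l, l₁ ≤ l → l < l₂ → l ≤ top D ∧ l ≠ l0) →
      ∀ f : Module.Dual (ZMod p) (k × k), (∃ w, Lead D (fun σ => f (c σ)) l₁ w) →
        ∃ w, Lead D (fun σ => f (c σ)) l₂ w := fun h hl f hf =>
    exists_lead_of_le D hA (res_xi_pow D τ) h (fun l h1 h2 => by
      obtain ⟨P, hP, hP'⟩ := hsep l (hl l h1 h2).1 (hl l h1 h2).2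
      exact ⟨P, by rw [Polynomial.aeval_algHom_apply, hP, map_zero], hP'⟩) hf
  have hlow : ∀ f : Module.Dual (ZMod p) (k × k), ∃ w, Lead D (fun σ => f (c σ)) l0 w := fun f =>
    hclimb (Nat.zero_le _) (fun l _ h => ⟨(h.trans hl0).le, h.ne⟩) f (hzero f)
  have hhigh : ∀ (f : Module.Dual (ZMod p) (k × k)) (w : Res p),
      Lead D (fun σ => f (c σ)) (l0 + 1) w → ∀ σ : Gp p, D.FixK σ → f (c σ) = 0 := by
    intro f w hw σ hσ
    obtain ⟨w', hw'⟩ := hclimb (l₁ := l0 + 1) (l₂ := top D + 1) (by omega)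
      (fun l h1 h2 => ⟨by omega, by omega⟩) f ⟨w, hw⟩
    exact hw'.eq_zero D (Nat.lt_succ_self _) hσ
  obtain ⟨r, q, hqr, hrel, hR⟩ := exists_relation (p := p) x y
  have hcount : Nat.card (imageSpan D c) ≤ p ^ (d * r) := by
    refine natCard_imageSpan_le D hl0 hdvd hlow hhigh (hA l0) (M := scalarOp p (k × k) y)
      (ν := res (xi D g) ^ l0) (pow_ne_zero _ (res_ne_zero (norm_xi D g))) hd
      (fun f w hw => lead_conj D hg hb (fun σ hσ => scalarOp_conj D (hconj g hgd) hχg hσ) hw)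
      (q := q) ?_ (by rw [hqr, map_one]; exact one_ne_zero)
    simp only [← map_pow, Polynomial.aeval_algHom_apply, ← map_mul, ← map_sum, hrel, map_zero]
  have hstab : ∀ (z : ZMod p) (h : Gp p), FixesUnity d h → χ h ≠ 0 →
      ∀ v ∈ imageSpan D c, (algebraMap (ZMod p) k z / χ h) • v ∈ imageSpan D c := by
    intro z h hh hχh v hv
    have hle : imageSpan D c ≤ (imageSpan D c).comap
        (scalarOp p (k × k) (algebraMap (ZMod p) k z / χ h)) := Submodule.span_le.2 (by
      rintro _ ⟨σ, hσ, rfl⟩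
      rw [SetLike.mem_coe, Submodule.mem_comap, scalarOp_conj D (hconj h hh) hχh hσ]
      exact Submodule.smul_mem _ z (mem_imageSpan D (by simpa using fixK_conj D h⁻¹ hσ)))
    exact hle hv
  obtain ⟨v, hv⟩ := exists_span_of_card_le x y
    (hstab a τ (fixesUnity_inertia hτ hd) hχτ) (hstab b g hgd hχg)
    (by
      rw [hR]
      refine hcount.trans ?_
      rw [pow_mul]
      exact Nat.pow_le_pow_left hcard r)
  by_cases hv0 : v = 0
  · refine ⟨1, 0, Or.inl one_ne_zero, fun σ hσ => ?_⟩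
    obtain ⟨s, hs⟩ := hv _ (mem_imageSpan D hσ)
    have h := congrArg Prod.fst hs
    simp only [c, hv0, smul_zero, Prod.fst_zero] at h
    rw [h, mul_zero, zero_mul, add_zero]
  · refine ⟨v.2, -v.1, ?_, fun σ hσ => ?_⟩
    · by_contra hno
      exact hv0 (Prod.ext (by_contra fun h => hno (Or.inr (neg_ne_zero.2 h)))
        (by_contra fun h => hno (Or.inl h)))
    · obtain ⟨s, hs⟩ := hv _ (mem_imageSpan D hσ)
      have h1 : c₁ σ = s * v.1 := congrArg Prod.fst hs
      have h2 : c₂ σ = s * v.2 := congrArg Prod.snd hs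
      rw [h1, h2]
      ring

/-- Polynomials over the prime field vanish alike at the tame character and its image in `k`. -/
theorem aeval_eq_zero_iff {τ : Gp p} {u : k}
    (hu : ∀ P : ℤ[X], ‖Polynomial.aeval (xi D τ) P‖ < 1 → Polynomial.aeval u P = 0)
    (P : (ZMod p)[X]) : Polynomial.aeval u P = 0 ↔ Polynomial.aeval (res (xi D τ)) P = 0 := by
  have hdir : ∀ P : (ZMod p)[X], Polynomial.aeval (res (xi D τ)) P = 0 →
      Polynomial.aeval u P = 0 := by
    intro P hP
    obtain ⟨P', rfl⟩ := Polynomial.map_surjective (algebraMap ℤ (ZMod p)) ZMod.intCast_surjective P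
    rw [aeval_def, Polynomial.eval₂_map,
      RingHom.ext_int ((algebraMap (ZMod p) (Res p)).comp (algebraMap ℤ (ZMod p)))
        (algebraMap ℤ (Res p)), ← aeval_def] at hP
    rw [aeval_def, Polynomial.eval₂_map,
      RingHom.ext_int ((algebraMap (ZMod p) k).comp (algebraMap ℤ (ZMod p))) (algebraMap ℤ k),
      ← aeval_def]
    rw [← res_aeval P' (norm_xi D τ).le, res_eq_zero_iff (aeval_mem P' (norm_xi D τ).le)] at hP
    exact hu P' hP
  refine ⟨fun hP => ?_, hdir P⟩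
  have hη : IsIntegral (ZMod p) (res (xi D τ)) :=
    IsIntegral.of_pow D.e_pos (by rw [res_xi_pow]; exact isIntegral_one)
  have heq : minpoly (ZMod p) (res (xi D τ)) = minpoly (ZMod p) u :=
    minpoly.eq_of_irreducible_of_monic (minpoly.irreducible hη) (hdir _ (minpoly.aeval _ _))
      (minpoly.monic hη)
  refine Polynomial.aeval_eq_zero_of_dvd_aeval_eq_zero ?_ (minpoly.aeval (ZMod p) (res (xi D τ)))
  rw [heq]
  exact minpoly.dvd (ZMod p) u hP

theorem pow_eq_conjugate [Finite k] {x y : k}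
    (h : Polynomial.aeval y (minpoly (ZMod p) x) = 0) : ∃ i : ℕ, y = x ^ p ^ i := by
  have hx : IsIntegral (ZMod p) x := Algebra.IsIntegral.isIntegral x
  have heq : minpoly (ZMod p) y = minpoly (ZMod p) x :=
    (minpoly.eq_of_irreducible_of_monic (minpoly.irreducible hx) h (minpoly.monic hx)).symm
  obtain ⟨σ, hσ⟩ := (Normal.minpoly_eq_iff_mem_orbit (F := ZMod p) (E := k)).1 heq
  obtain ⟨n, hn⟩ := (FiniteField.bijective_frobeniusAlgEquivOfAlgebraic_pow (ZMod p) k).2 σ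
  refine ⟨n, ?_⟩
  rw [← hσ, ← hn]
  show (FiniteField.frobeniusAlgEquivOfAlgebraic (ZMod p) k ^ (n : ℕ)) x = _
  rw [AlgEquiv.coe_pow, FiniteField.coe_frobeniusAlgEquivOfAlgebraic_iterate, ZMod.card]

omit [Algebra (ZMod p) k] in
/-- The level-two separation: only `l = 2` is not separated from `u ^ (2 p)`. -/
theorem eq_two_of_pow_eq {u : k} (hp2 : p ≠ 2) (hu : IsPrimitiveRoot u (p ^ 2 - 1)) {l i : ℕ}
    (hl : l ≤ p + 1) (h : u ^ l = (u ^ (2 * p)) ^ p ^ i) : l = 2 := by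
  have hp := (Fact.out : p.Prime)
  have h3 : 3 ≤ p := by have := hp.two_le; omega
  have hsq : 3 * p ≤ p ^ 2 := by rw [sq]; exact Nat.mul_le_mul_right p h3
  have hper : u ^ (2 * p * p) = u ^ 2 := by
    have he : 2 * p * p = (p ^ 2 - 1) * 2 + 2 := by
      rw [mul_assoc, ← sq]
      omega
    rw [he, pow_add, pow_mul, hu.pow_eq_one, one_pow, one_mul]
  have hcases : ∀ j : ℕ, (u ^ (2 * p)) ^ p ^ j = u ^ (2 * p) ∨ (u ^ (2 * p)) ^ p ^ j = u ^ 2 := by
    intro j
    induction j with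
    | zero => left; simp
    | succ j ih =>
      rcases ih with h' | h' <;> rw [pow_succ, pow_mul, h', ← pow_mul]
      · right; exact hper
      · left; rfl
  rcases hcases i with h' | h' <;> rw [h'] at h
  · have := hu.pow_inj (by omega) (by omega) h
    omega
  · exact hu.pow_inj (by omega) (by omega) h

theorem eigen_two [Finite k] (hp2 : p ≠ 2) (he : e = p ^ 2 - 1) {τ : Gp p}
    (hτ : IsInertia τ) (hprim : IsPrimitiveRoot (τ D.ϖ / D.ϖ) e) {a : ZMod p}
    (ha : τ D.zeta = D.zeta ^ a.val) {u v : k}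
    (hu : ∀ P : ℤ[X], ‖Polynomial.aeval (xi D τ) P‖ < 1 → Polynomial.aeval u P = 0)
    (hv : v = u ^ (p * (p - 1))) :
    v ≠ 0 ∧ 2 < top D ∧ ¬ p ∣ e + 2 ∧
      p ^ 2 ≤ Nat.card (IntermediateField.adjoin (ZMod p)
        ({algebraMap (ZMod p) k a / v} : Set k)) ∧
      ∀ l, l ≤ top D → l ≠ 2 → ∃ P : (ZMod p)[X],
        Polynomial.aeval (algebraMap (ZMod p) k a / v) P = 0 ∧
        Polynomial.aeval (res (xi D τ) ^ l) P ≠ 0 := by
  have hp := (Fact.out : p.Prime)
  have h3 : 3 ≤ p := by have := hp.two_le; omega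
  have hsq : 3 * p ≤ p ^ 2 := by rw [sq]; exact Nat.mul_le_mul_right p h3
  have htop : top D = p + 1 := by
    refine Nat.eq_of_mul_eq_mul_right (show 0 < p - 1 by omega) ?_
    rw [top_mul, he]
    simpa using Nat.sq_sub_sq p 1
  have hiff := aeval_eq_zero_iff D hu
  have hprimu : IsPrimitiveRoot u e := by
    refine ⟨?_, fun l hl => res_xi_pow_eq_one D hprim ?_⟩
    · have h := (hiff (X ^ e - 1)).2 (by simp [res_xi_pow])
      simpa [sub_eq_zero] using h
    · have h := (hiff (X ^ l - 1)).1 (by simp [hl])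
      simpa [sub_eq_zero] using h
  have hu0 : u ≠ 0 := hprimu.ne_zero D.e_pos.ne'
  have hua : u ^ (p + 1) = algebraMap (ZMod p) k a := by
    have h := (hiff (X ^ (p + 1) - Polynomial.C a)).2 (by
      rw [map_sub, map_pow, aeval_X, aeval_C, ← htop, res_xi_pow_top D hτ ha]
      conv_lhs => arg 2; rw [← ZMod.natCast_zmod_val a, map_natCast]
      exact sub_self _)
    simpa [sub_eq_zero] using h
  set x : k := algebraMap (ZMod p) k a / v with hx
  have hx' : x = u ^ (2 * p) := by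
    have he' : 2 * p + p * (p - 1) = e + (p + 1) := by
      rw [he, Nat.mul_sub, mul_one, ← sq]
      omega
    rw [hx, hv, div_eq_iff (pow_ne_zero _ hu0), ← pow_add, he', pow_add, hprimu.pow_eq_one,
      one_mul, hua]
  refine ⟨hv ▸ pow_ne_zero _ hu0, by omega, ?_, ?_, ?_⟩
  · intro hd
    have h1 : e + 2 = p ^ 2 + 1 := by omega
    rw [h1] at hd
    exact hp.one_lt.ne' (Nat.dvd_one.1 ((Nat.dvd_add_right (dvd_pow_self p two_ne_zero)).1 hd))
  · rw [Module.natCard_eq_pow_finrank (K := ZMod p), Nat.card_zmod]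
    refine Nat.pow_le_pow_right hp.pos ?_
    by_contra hlt
    have hpos : 0 < Module.finrank (ZMod p) (IntermediateField.adjoin (ZMod p) ({x} : Set k)) :=
      Module.finrank_pos
    have h1 := IntermediateField.finrank_adjoin_simple_eq_one_iff.1
      (show Module.finrank (ZMod p) (IntermediateField.adjoin (ZMod p) ({x} : Set k)) = 1 by omega)
    obtain ⟨z, hz⟩ := IntermediateField.mem_bot.1 h1
    have hfix : x ^ p = x := by rw [← hz, ← map_pow, ZMod.pow_card]
    have h2 : u ^ 2 = (u ^ (2 * p)) ^ p ^ 0 := by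
      rw [pow_zero, pow_one, ← hx', ← hfix, hx', ← pow_mul]
      have he2 : 2 * p * p = e * 2 + 2 := by
        rw [mul_assoc, ← sq]
        omega
      rw [he2, pow_add, pow_mul, hprimu.pow_eq_one, one_pow, one_mul]
    have := hprimu.pow_inj (show 2 < e by omega) (show 2 * p < e by omega)
      (by simpa using h2)
    omega
  · intro l hl hl2
    refine ⟨minpoly (ZMod p) x, minpoly.aeval _ _, fun h0 => hl2 ?_⟩
    have h1 := (hiff ((minpoly (ZMod p) x).comp (X ^ l))).2 (by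
      rw [Polynomial.aeval_comp, map_pow, aeval_X]
      exact h0)
    rw [Polynomial.aeval_comp, map_pow, aeval_X] at h1
    obtain ⟨i, hi⟩ := pow_eq_conjugate h1
    rw [hx'] at hi
    exact eq_two_of_pow_eq hp2 (he ▸ hprimu) (htop ▸ hl) hi

end Fermat.Agent.FlatLocal.Engine
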